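/-
MLT / [L2] / P9 (helper1), part 2: **divisors of a lower level whose pull-back has a prescribed slope vector**.

`φ : F̄_M → F̄_{Kp}` an embedding of function fields over `ℚ̄` (`K` rigid), `f₀ ∈ F̄_M` a function whose pull-back has
no pole through the nodes and whose divisor has the constant slope vector `r` on `Σ_K`.  For every set `C` of
supersingular places which is closed under "two places through the two nodes have the same restriction to `F̄_M`"
there is a divisor `D` of degree `0` of `F̄_M` with `sl (φ^* D) = r · 𝟙_C` on `Σ_K` EXACTLY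
(`D` = the zeros of `f₀` lying under the places through the nodes of `C`, minus a multiple of a place `y_∞` which
lies under no place through a node).

* `mltj9Thr P Y`       : `Y` passes through the node over `P` (level `⊤`);
* `mltj9_sl_congr`     : the slope at `P` only depends on the coefficients at the places through `P`;
* **`mltj9_exists_div`** : the statement above.
-/
import Mathlib
import Fermat.Agent.Lib.MLT.L2.P6.CharI
import Fermat.Agent.Lib.MLT.L2.P8.Surj

set_option autoImplicit false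
set_option linter.unusedSectionVars false
set_option linter.unusedVariables false
set_option linter.style.haveILetI false
set_option synthInstance.maxHeartbeats 400000
set_option maxHeartbeats 1000000

open HahnSeries ModularCurve Fermat.Agent.T1 Fermat.Agent.T2 Fermat.Agent.T4 Fermat.Agent.TW
  Fermat.Agent.S05Lib Fermat.Agent.S24Lib IntermediateField AlgebraicCurve Fermat.Agent.Curve Module
  Fermat.Agent.S33 Fermat.Agent.S33Q Fermat.Agent.Delta Fermat.Agent.Curve.PlaceAux Fermat.Agent.T3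

noncomputable section

namespace Fermat.Agent.MLT

local notation "Qb" => AlgebraicClosure ℚ

attribute [local instance] t2i_dvr t2i_isAlgClosed t2i_charP t2i_fact
attribute [local instance 10000] dliAlgF dliAlgE

section Thr

variable (𝔓 : FFPlace) (K : ℕ) [NeZero K] (hK : ¬ 𝔓.p ∣ K) (h49 : 4 ∣ K ∨ 9 ∣ K)

/-- the place `Y` of `F̄ / ℚ̄` passes through the node over the place `P` (at the level `⊤`) -/
def mltj9Thr (P : Place (IsLocalRing.ResidueField ↥𝔓.P) ↥(tbBarF 𝔓 K))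
    (Y : Place Qb ↥(modularFunctionFieldBar (K * 𝔓.p))) : Prop :=
  ∃ d : MltJ6NodeAt 𝔓 K hK h49 ⊤ P, mltj6Through d Y

variable {𝔓 K hK h49}

/-- node data exist at every level over a supersingular place -/
theorem mltj9_exists_nodeAt {P : Place (IsLocalRing.ResidueField ↥𝔓.P) ↥(tbBarF 𝔓 K)}
    (hP : P ∈ mltjSS 𝔓 K hK h49) (H : Subgroup 𝔓.I) [H.FiniteIndex] :
    Nonempty (MltJ6NodeAt 𝔓 K hK h49 H P) := by
  obtain ⟨n, su, hx, hxb, Q, hs⟩ := hP
  exact mltj6_exists_nodeAt_of_node 𝔓 K hK h49 su hx hxb hs H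

/-- a place which does not pass through the node has position `0` -/
theorem mltj9_pos_eq_zero (hII : MltJ6CharII)
    {P : Place (IsLocalRing.ResidueField ↥𝔓.P) ↥(tbBarF 𝔓 K)} (hP : P ∈ mltjSS 𝔓 K hK h49)
    {Y : Place Qb ↥(modularFunctionFieldBar (K * 𝔓.p))} (h : ¬ mltj9Thr 𝔓 K hK h49 P Y) :
    mltj6Pos 𝔓 K hK h49 P Y = 0 := by
  obtain ⟨d⟩ := mltj9_exists_nodeAt hP (⊤ : Subgroup 𝔓.I)
  exact hII 𝔓 K hK h49 ⊤ P d Y fun hthr => h ⟨d, hthr⟩

/-- the slope at `P` only depends on the coefficients weighted by the positions -/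
theorem mltj9_sl_congr (P : Place (IsLocalRing.ResidueField ↥𝔓.P) ↥(tbBarF 𝔓 K))
    (D₁ D₂ : Divisor Qb ↥(modularFunctionFieldBar (K * 𝔓.p)))
    (h : ∀ Y, (D₁ Y : ℚ) * mltj6Pos 𝔓 K hK h49 P Y = (D₂ Y : ℚ) * mltj6Pos 𝔓 K hK h49 P Y) :
    mltj6Sl 𝔓 K hK h49 D₁ P = mltj6Sl 𝔓 K hK h49 D₂ P := by
  classical
  rw [mltj6Sl_apply, mltj6Sl_apply]
  rw [Finsupp.sum_of_support_subset D₁ (Finset.subset_union_left (s₂ := D₂.support)) _
      (fun Q _ => by simp),
    Finsupp.sum_of_support_subset D₂ (Finset.subset_union_right (s₁ := D₁.support)) _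
      (fun Q _ => by simp)]
  exact Finset.sum_congr rfl fun Y _ => h Y

theorem mltj9_sl_eq_zero (P : Place (IsLocalRing.ResidueField ↥𝔓.P) ↥(tbBarF 𝔓 K))
    (D : Divisor Qb ↥(modularFunctionFieldBar (K * 𝔓.p)))
    (h : ∀ Y, (D Y : ℚ) * mltj6Pos 𝔓 K hK h49 P Y = 0) :
    mltj6Sl 𝔓 K hK h49 D P = 0 := by
  have h1 := mltj9_sl_congr P D 0 (fun Y => by rw [h Y]; simp)
  rw [h1, map_zero]
  rfl

end Thr

section Main

variable {𝔓 : FFPlace} {K : ℕ} [NeZero K] {hK : ¬ 𝔓.p ∣ K} {h49 : 4 ∣ K ∨ 9 ∣ K}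
  {M : ℕ} [NeZero M]

/-- **divisors of the level `M` whose pull-back has the slope vector `r · 𝟙_C`** -/
theorem mltj9_exists_div (hII : MltJ6CharII)
    (φ : ↥(modularFunctionFieldBar M) →ₐ[Qb] ↥(modularFunctionFieldBar (K * 𝔓.p)))
    (hφ : φ.toRingHom.IsIntegral) (f₀ : ↥(modularFunctionFieldBar M))
    (yinf : Place Qb ↥(modularFunctionFieldBar M))
    (C : Set (Place (IsLocalRing.ResidueField ↥𝔓.P) ↥(tbBarF 𝔓 K))) (r : ℚ)
    (hreg : ∀ P ∈ mltjSS 𝔓 K hK h49, ∀ Y, mltj9Thr 𝔓 K hK h49 P Y → 0 ≤ Y.ord (φ f₀))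
    (hinf : ∀ P ∈ mltjSS 𝔓 K hK h49, ∀ Y, mltj9Thr 𝔓 K hK h49 P Y →
      Y.restrictAlong φ hφ ≠ yinf)
    (hsl : ∀ D' : Divisor Qb ↥(modularFunctionFieldBar (K * 𝔓.p)),
      (∀ v, D' v = v.ord (φ f₀)) → ∀ P ∈ mltjSS 𝔓 K hK h49, mltj6Sl 𝔓 K hK h49 D' P = r)
    (hf₀ : f₀ ≠ 0)
    (hC : ∀ P ∈ mltjSS 𝔓 K hK h49, P ∈ C → ∀ P' ∈ mltjSS 𝔓 K hK h49, ∀ Y Y',
      mltj9Thr 𝔓 K hK h49 P Y → mltj9Thr 𝔓 K hK h49 P' Y' →
      Y.restrictAlong φ hφ = Y'.restrictAlong φ hφ → P' ∈ C) :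
    ∃ D : Divisor.degZero (K := Qb) (F := ↥(modularFunctionFieldBar M)),
      ∀ P ∈ mltjSS 𝔓 K hK h49,
        (P ∈ C → mltj6Sl 𝔓 K hK h49
          (Divisor.pullbackAlong φ hφ (D : Divisor Qb ↥(modularFunctionFieldBar M))) P = r) ∧
        (P ∉ C → mltj6Sl 𝔓 K hK h49
          (Divisor.pullbackAlong φ hφ (D : Divisor Qb ↥(modularFunctionFieldBar M))) P = 0) := by
  classical
  -- the divisor of `f₀` and of `φ f₀`
  obtain ⟨D₀, hD₀, -⟩ := HasPrincipalDivisors.exists_divisor (K := Qb) f₀ hf₀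
  have hφf₀ : φ f₀ ≠ 0 := (map_ne_zero φ).mpr hf₀
  obtain ⟨D', hD', -⟩ := HasPrincipalDivisors.exists_divisor (K := Qb) (φ f₀) hφf₀
  -- the zeros under the nodes of `C`
  set ZC : Finset (Place Qb ↥(modularFunctionFieldBar M)) :=
    D₀.support.filter (fun y => 0 < y.ord f₀ ∧
      ∃ Y P, P ∈ mltjSS 𝔓 K hK h49 ∧ P ∈ C ∧ mltj9Thr 𝔓 K hK h49 P Y ∧
        Y.restrictAlong φ hφ = y) with hZC
  have hmemZC : ∀ y, y ∈ ZC ↔ (0 < y.ord f₀ ∧
      ∃ Y P, P ∈ mltjSS 𝔓 K hK h49 ∧ P ∈ C ∧ mltj9Thr 𝔓 K hK h49 P Y ∧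
        Y.restrictAlong φ hφ = y) := by
    intro y
    rw [hZC, Finset.mem_filter, Finsupp.mem_support_iff, hD₀]
    constructor
    · exact fun h => h.2
    · exact fun h => ⟨by omega, h⟩
  -- the divisor
  set D : Divisor Qb ↥(modularFunctionFieldBar M) :=
    ∑ y ∈ ZC, (y.ord f₀) • (Finsupp.single y 1 - Finsupp.single yinf 1) with hD
  have hDdeg : D ∈ Divisor.degZero (K := Qb) (F := ↥(modularFunctionFieldBar M)) := by
    rw [hD]
    exact AddSubgroup.sum_mem _ fun y _ =>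
      AddSubgroup.zsmul_mem _ (mltj8_sub_mem_degZero M y yinf) _
  have hDy : ∀ y, y ≠ yinf → D y = if y ∈ ZC then y.ord f₀ else 0 := by
    intro y hy
    rw [hD, Finsupp.finsetSum_apply]
    have h1 : ∀ y' ∈ ZC, ((y'.ord f₀) • (Finsupp.single y' 1 - Finsupp.single yinf 1 :
        Divisor Qb ↥(modularFunctionFieldBar M))) y = if y' = y then y'.ord f₀ else 0 := by
      intro y' _
      rw [Finsupp.smul_apply, Finsupp.sub_apply, Finsupp.single_apply, Finsupp.single_apply,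
        if_neg (Ne.symm hy)]
      by_cases h : y' = y
      · rw [if_pos h, if_pos h]; simp
      · rw [if_neg h, if_neg h]; simp
    rw [Finset.sum_congr rfl h1, Finset.sum_ite_eq' ZC y (fun y' => y'.ord f₀)]
  refine ⟨⟨D, hDdeg⟩, fun P hP => ⟨fun hPC => ?_, fun hPC => ?_⟩⟩
  · -- `P ∈ C`: the pull-back agrees with `div (φ f₀)` through the node
    rw [← hsl D' hD' P hP]
    refine mltj9_sl_congr P _ _ fun Y => ?_
    by_cases hthr : mltj9Thr 𝔓 K hK h49 P Y
    · have hy := hinf P hP Y hthr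
      have hord := Place.ord_restrictAlong φ hφ Y f₀
      have hepos : 0 < Place.ramificationIndexAlong φ Y := by
        letI := algebraAlong φ
        haveI := isScalarTower_along φ
        haveI := isIntegral_along φ hφ
        exact Place.ramificationIndex_pos Y
      have hnn : 0 ≤ (Y.restrictAlong φ hφ).ord f₀ := by
        have h1 := hreg P hP Y hthr
        rw [hord] at h1
        have he' : (0 : ℤ) < (Place.ramificationIndexAlong φ Y : ℤ) := by exact_mod_cast hepos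
        by_contra hneg
        push Not at hneg
        have := mul_neg_of_pos_of_neg he' hneg
        omega
      congr 1
      show ((Divisor.pullbackAlong φ hφ D Y : ℤ) : ℚ) = ((D' Y : ℤ) : ℚ)
      rw [Divisor.pullbackAlong_apply, hDy _ hy, hD', hord]
      by_cases hmem : Y.restrictAlong φ hφ ∈ ZC
      · rw [if_pos hmem]
      · rw [if_neg hmem]
        have h0 : ¬ 0 < (Y.restrictAlong φ hφ).ord f₀ := fun hpos =>
          hmem ((hmemZC _).mpr ⟨hpos, Y, P, hP, hPC, hthr, rfl⟩)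
        have h00 : (Y.restrictAlong φ hφ).ord f₀ = 0 := by omega
        rw [h00]
    · rw [mltj9_pos_eq_zero hII hP hthr, mul_zero, mul_zero]
  · -- `P ∉ C`
    refine mltj9_sl_eq_zero P _ fun Y => ?_
    by_cases hthr : mltj9Thr 𝔓 K hK h49 P Y
    · have hy := hinf P hP Y hthr
      have h0 : Divisor.pullbackAlong φ hφ D Y = 0 := by
        rw [Divisor.pullbackAlong_apply, hDy _ hy]
        by_cases hmem : Y.restrictAlong φ hφ ∈ ZC
        · exfalso
          obtain ⟨-, Y', P', hP', hP'C, hthr', hres⟩ := (hmemZC _).mp hmem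
          exact hPC (hC P' hP' hP'C P hP Y' Y hthr' hthr hres)
        · rw [if_neg hmem, mul_zero]
      show ((Divisor.pullbackAlong φ hφ D Y : ℤ) : ℚ) * _ = 0
      rw [h0]
      simp
    · rw [mltj9_pos_eq_zero hII hP hthr, mul_zero]

end Main

end Fermat.Agent.MLT
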