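/-
MLT / [L2] / P9 (helper1), part 4: **values at a point through a node, over `ℚ̄`**.

`A ∈ F_{N'p} ⊗ ℚ̄` in the two-valuation Gauss ring `s33qOv` and integral over `ℚ̄[x]` (`x` the symmetric chart),
`P` a supersingular place, `Y` a place of `F̄ / ℚ̄` through the node over `P`.  Then the value `c` of `A` at `Y` is
`𝔓`-integral and `(c mod 𝔓)` is the value at `P` of the reduction of `A` (first component).
-/
import Mathlib
import Fermat.Agent.Lib.MLT.L2.P9.Ev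
import Fermat.Agent.Lib.MLT.L2.P9.Pull

set_option autoImplicit false
set_option linter.unusedSectionVars false
set_option linter.unusedVariables false
set_option linter.style.haveILetI false
set_option synthInstance.maxHeartbeats 400000
set_option maxHeartbeats 1000000

open HahnSeries ModularCurve Fermat.Agent.T1 Fermat.Agent.T2 Fermat.Agent.T4 Fermat.Agent.TW
  Fermat.Agent.S05Lib Fermat.Agent.S24Lib IntermediateField AlgebraicCurve Fermat.Agent.Curve Module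
  Fermat.Agent.S33 Fermat.Agent.S33Q Fermat.Agent.Delta Fermat.Agent.Curve.PlaceAux

noncomputable section

namespace Fermat.Agent.MLT

local notation "Qb" => AlgebraicClosure ℚ

attribute [local instance] t2i_dvr t2i_isAlgClosed t2i_charP t2i_fact
attribute [local instance 10000] dliAlgF dliAlgE

variable {𝔓 : FFPlace} {N' : ℕ} [NeZero N'] {h : ¬ 𝔓.p ∣ N'} {h49 : 4 ∣ N' ∨ 9 ∣ N'}
  {P : Place (IsLocalRing.ResidueField ↥𝔓.P) ↥(tbBarF 𝔓 N')}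

/-- the value at a point through the node of a function of the chart ring, at the level `H` -/
theorem mltj9_lift_level {H : Subgroup 𝔓.I} [H.FiniteIndex] (d : MltJ6NodeAt 𝔓 N' h h49 H P)
    (Q : Place Qb ↥(modularFunctionFieldBar (N' * 𝔓.p))) (hthr : mltj6Through d Q)
    {a : ↥(tbLevF 𝔓 (N' * 𝔓.p) H)} (haOv : a ∈ (t2iBase2Fix 𝔓 H N' h).Ov)
    (haint : IsIntegral ↥(Algebra.adjoin ↥(tbFix 𝔓 H) {t2gaX 𝔓 H N' h (𝔓.p ^ 2)}) a) :
    ∃ (c : Qb) (hc : c ∈ 𝔓.P),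
      OrdGE Q (tbPhiF 𝔓 (N' * 𝔓.p) H a -
        algebraMap Qb ↥(modularFunctionFieldBar (N' * 𝔓.p)) c) 1 ∧
      DlgVal P ((t2iBase2Fix 𝔓 H N' h).res ⟨a, haOv⟩).1
        (IsLocalRing.residue ↥𝔓.P ⟨c, hc⟩) := by
  have hb : a ∈ d.C.P.B := by
    rw [mem_dlxChart1_B]
    refine ⟨?_, haOv⟩
    rw [mem_t2Int, d.hx]
    exact haint
  refine ⟨mltj6Ev d Q hthr ⟨a, mltj9_B_le_A d hb⟩, mltj6Ev_mem_P d Q hthr _,
    mltj6Ev_spec d Q hthr ⟨a, mltj9_B_le_A d hb⟩, ?_⟩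
  rw [mltj9_ev_res d Q hthr hb]
  have h1 := d.C.ev₁_spec P d.hP ⟨a, hb⟩
  rw [DlxChart.res₁_apply] at h1
  rw [dliH_res_eq 𝔓 H d.hϖ N' h haOv]
  exact h1

/-- **the value at a point through a node** of an integral function over `ℚ̄` -/
theorem mltj9_lift {Y : Place Qb ↥(modularFunctionFieldBar (N' * 𝔓.p))}
    (hthr : mltj9Thr 𝔓 N' h h49 P Y) {A : ↥(modularFunctionFieldBar (N' * 𝔓.p))}
    (hA : A ∈ s33qOv 𝔓 N' h) (hint : IsIntegral ↥(Algebra.adjoin Qb {s33qX 𝔓 N' h}) A) :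
    ∃ (c : Qb) (hc : c ∈ 𝔓.P),
      OrdGE Y (A - algebraMap Qb ↥(modularFunctionFieldBar (N' * 𝔓.p)) c) 1 ∧
      DlgVal P (s33qRes 𝔓 N' h ⟨A, hA⟩).1 (IsLocalRing.residue ↥𝔓.P ⟨c, hc⟩) := by
  obtain ⟨d₀, h₀⟩ := hthr
  obtain ⟨H, hH, -, -, hT⟩ := s33q_exists_level 𝔓 N' ⊤ {A}
  obtain ⟨a, ha⟩ := hT A (Finset.mem_singleton_self A)
  haveI := hH
  obtain ⟨d⟩ := mltj6_exists_nodeAt_of_node 𝔓 N' h h49 d₀.su d₀.hx d₀.hxb d₀.hs H
  have hthrH : mltj6Through d Y := mltj6_through_up le_top d₀ d Y h₀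
  have haOv : a ∈ (t2iBase2Fix 𝔓 H N' h).Ov := (s33q_phi_mem_iff 𝔓 N' h H a).mp (ha ▸ hA)
  have haint : IsIntegral ↥(Algebra.adjoin ↥(tbFix 𝔓 H) {t2gaX 𝔓 H N' h (𝔓.p ^ 2)}) a := by
    rw [t2d_isIntegral_tbPhiF_iff 𝔓 (N' * 𝔓.p) H, s33q_phi_X, ha]
    exact hint
  obtain ⟨c, hc, h1, h2⟩ := mltj9_lift_level d Y hthrH haOv haint
  refine ⟨c, hc, ?_, ?_⟩
  · rw [← ha]; exact h1
  · have h3 := s33qRes_phi 𝔓 N' h H haOv
    have h4 : s33qRes 𝔓 N' h ⟨A, hA⟩ =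
        s33qRes 𝔓 N' h ⟨tbPhiF 𝔓 (N' * 𝔓.p) H a, s33q_phi_mem 𝔓 N' h H haOv⟩ := by
      congr 1
      exact Subtype.ext ha.symm
    rw [h4, h3]
    exact h2

end Fermat.Agent.MLT
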