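/-
MLT / [L2] / P9 (helper1), part 5: **functions of the level `N'` inside `F_{N'p} ⊗ ℚ̄`**.

`G ∈ F_{N'} ⊗ ℚ̄` a Gauss element, integral over `ℚ̄[j]`.  Then `α G ∈ F_{N'p} ⊗ ℚ̄` lies in the two-valuation Gauss
ring `s33qOv`, is integral over `ℚ̄[x]` (`x` the symmetric chart), and its first reduction is the reduction of `G`.
-/
import Mathlib
import Fermat.Agent.Lib.MLT.L2.P9.Lift

set_option autoImplicit false
set_option linter.unusedSectionVars false
set_option linter.unusedVariables false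
set_option linter.style.haveILetI false
set_option synthInstance.maxHeartbeats 400000
set_option maxHeartbeats 1000000

open HahnSeries ModularCurve Fermat.Agent.T1 Fermat.Agent.T2 Fermat.Agent.T4 Fermat.Agent.TW
  Fermat.Agent.S05Lib Fermat.Agent.S24Lib IntermediateField AlgebraicCurve Fermat.Agent.Curve Module
  Fermat.Agent.S33 Fermat.Agent.S33Q Fermat.Agent.Delta Fermat.Agent.Curve.PlaceAux Fermat.Agent.T3

noncomputable section

namespace Fermat.Agent.MLT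

local notation "Qb" => AlgebraicClosure ℚ

attribute [local instance] t2i_dvr t2i_isAlgClosed t2i_charP t2i_fact
attribute [local instance 10000] dliAlgF dliAlgE

variable (𝔓 : FFPlace) (N' : ℕ) [NeZero N'] (h : ¬ 𝔓.p ∣ N')

/-- `α` maps the Gauss ring of the level `N'` into the two-valuation Gauss ring -/
theorem mltj9_alpha_mem {G : ↥(modularFunctionFieldBar N')} (hG : G ∈ tbOvQ 𝔓 N') :
    heckeAlphaBar Qb N' 𝔓.p G ∈ s33qOv 𝔓 N' h := by
  rw [mem_s33qOv]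
  refine ⟨?_, ?_⟩
  · rw [coe_heckeAlphaBar]
    exact hG
  · rw [t2w_alpha Qb N' 𝔓.p h, coe_heckeBetaBar]
    exact (dlh_gauss_qExpand 𝔓.P (IsLocalRing.residue ↥𝔓.P) hG 𝔓.p).1

/-- the first reduction of `α G` is the reduction of `G` -/
theorem mltj9_alpha_res {G : ↥(modularFunctionFieldBar N')} (hG : G ∈ tbOvQ 𝔓 N') :
    (s33qRes 𝔓 N' h ⟨heckeAlphaBar Qb N' 𝔓.p G, mltj9_alpha_mem 𝔓 N' h hG⟩).1 =
      tbResQ (t3aOK 𝔓 N' h) ⟨G, hG⟩ := by
  apply Subtype.ext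
  rw [coe_s33qRes_fst, coe_tbResQ]
  show tbRhoFun 𝔓.P (IsLocalRing.residue ↥𝔓.P)
    ((heckeAlphaBar Qb N' 𝔓.p G : ↥(modularFunctionFieldBar (N' * 𝔓.p))) : LaurentSeries Qb) = _
  rw [coe_heckeAlphaBar]

omit 𝔓 N' in
/-- `α` preserves the integrality over `ℚ̄[j]` -/
theorem mltj9_alphaBar_int (N ℓ : ℕ) [NeZero N] [NeZero ℓ] {G : ↥(modularFunctionFieldBar N)}
    (hint : IsIntegral ↥(Algebra.adjoin Qb {tbJ N}) G) :
    IsIntegral ↥(Algebra.adjoin Qb {tbJ (N * ℓ)}) (heckeAlphaBar Qb N ℓ G) := by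
  rw [t2d_isIntegral_adjoin_iff] at hint ⊢
  obtain ⟨d, q, hq⟩ := hint
  refine ⟨d, q, ?_⟩
  have h2 : heckeAlphaBar Qb N ℓ (tbJ N) = tbJ (N * ℓ) := Subtype.ext rfl
  have h3 := congrArg (heckeAlphaBar Qb N ℓ) hq
  rw [map_add, map_pow, map_sum, map_zero] at h3
  rw [← h3]
  congr 1
  refine Finset.sum_congr rfl fun i _ => ?_
  rw [map_mul, map_pow, ← Polynomial.aeval_algHom_apply, h2]

/-- `α G` is integral over `ℚ̄[x]` -/
theorem mltj9_alpha_int {G : ↥(modularFunctionFieldBar N')}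
    (hint : IsIntegral ↥(Algebra.adjoin Qb {tbJ N'}) G) :
    IsIntegral ↥(Algebra.adjoin Qb {s33qX 𝔓 N' h}) (heckeAlphaBar Qb N' 𝔓.p G) := by
  have h1 : IsIntegral ↥(Algebra.adjoin Qb {s33qX 𝔓 N' h}) (tbJ (N' * 𝔓.p)) :=
    t2ca_bar_ca1 N' 𝔓.p h
  exact t2c_isIntegral_trans h1 (mltj9_alphaBar_int N' 𝔓.p hint)

end Fermat.Agent.MLT
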