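/-
MLT / [L2] / P9 (helper1), part 3: **the value at a point through a node of a function of the chart ring reduces to
the value of its reduction at the node**.

`d` a node datum at the level `H` over `P`, `Q` a place of `F̄ / ℚ̄` through the node, `b ∈ B` (the chart ring).
* `mltj9_ev_nonunit` : the values at `Q` of the non-units of the local ring `A` of the node lie in `𝔪_𝔓`
                       (`1 − x a` is a unit of `A` for every constant `a`, and units have unit values);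
* **`mltj9_ev_res`** : `(ev_Q b mod 𝔪_𝔓) = ev₁ P b` (the value at `P` of the reduction of `b` on the first component).
-/
import Mathlib
import Fermat.Agent.Lib.MLT.L2.P6.Value

set_option autoImplicit false
set_option linter.unusedSectionVars false
set_option linter.unusedVariables false
set_option linter.style.haveILetI false
set_option synthInstance.maxHeartbeats 400000
set_option maxHeartbeats 1000000

open HahnSeries ModularCurve Fermat.Agent.T1 Fermat.Agent.T2 Fermat.Agent.T4 Fermat.Agent.TW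
  Fermat.Agent.S05Lib Fermat.Agent.S24Lib IntermediateField AlgebraicCurve Fermat.Agent.Curve Module
  Fermat.Agent.S33 Fermat.Agent.S33Q Fermat.Agent.Delta Fermat.Agent.Curve.PlaceAux

noncomputable section

namespace Fermat.Agent.MLT

local notation "Qb" => AlgebraicClosure ℚ

attribute [local instance] t2i_dvr t2i_isAlgClosed t2i_charP t2i_fact
attribute [local instance 10000] dliAlgF dliAlgE

variable {𝔓 : FFPlace} {N' : ℕ} [NeZero N'] {h : ¬ 𝔓.p ∣ N'} {h49 : 4 ∣ N' ∨ 9 ∣ N'}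
  {P : Place (IsLocalRing.ResidueField ↥𝔓.P) ↥(tbBarF 𝔓 N')}
  {H : Subgroup 𝔓.I} [H.FiniteIndex] (d : MltJ6NodeAt 𝔓 N' h h49 H P)
  (Q : Place Qb ↥(modularFunctionFieldBar (N' * 𝔓.p))) (hthr : mltj6Through d Q)

/-- the constants of `O_H` in the local ring of the node -/
theorem mltj9_const_mem_A (a : ↥(tbFixO 𝔓 H)) :
    algebraMap ↥(tbFix 𝔓 H) ↥(tbLevF 𝔓 (N' * 𝔓.p) H) (a : ↥(tbFix 𝔓 H)) ∈ d.𝒩.A :=
  d.𝒩.O_le _ (by rw [mltj6_nodeAt_O]; exact a.2)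

/-- **the values of the non-units of the local ring of the node lie in the maximal ideal of `𝔓`** -/
theorem mltj9_ev_nonunit (x : ↥d.𝒩.A) (hx : ¬ IsUnit x) :
    (⟨mltj6Ev d Q hthr x, mltj6Ev_mem_P d Q hthr x⟩ : ↥𝔓.P) ∈ IsLocalRing.maximalIdeal ↥𝔓.P := by
  by_contra hnot
  set ε : ↥𝔓.P := ⟨mltj6Ev d Q hthr x, mltj6Ev_mem_P d Q hthr x⟩ with hε
  have hεu : IsUnit ε := by
    by_contra h1
    exact hnot ((IsLocalRing.mem_maximalIdeal _).mpr h1)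
  obtain ⟨ε', hε'⟩ := isUnit_iff_exists_inv.mp hεu
  obtain ⟨a, ha⟩ := tbFixRes_surjective 𝔓 H (IsLocalRing.residue ↥𝔓.P ε')
  set a' : ↥d.𝒩.A := ⟨_, mltj9_const_mem_A d a⟩ with ha'
  -- `1 - x a'` is a unit of `A`
  have hxa : x * a' ∈ nonunits ↥d.𝒩.A := by
    have h1 : x ∈ IsLocalRing.maximalIdeal ↥d.𝒩.A := (IsLocalRing.mem_maximalIdeal _).mpr hx
    exact (IsLocalRing.mem_maximalIdeal _).mp (Ideal.mul_mem_right _ _ h1)
  have hu : IsUnit (1 - x * a') := IsLocalRing.isUnit_one_sub_self_of_mem_nonunits _ hxa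
  have hU : d.𝒩.IsU (((1 - x * a' : ↥d.𝒩.A)) : ↥(tbLevF 𝔓 (N' * 𝔓.p) H)) :=
    (dln_isU_iff_isUnit d.𝒩.toDlLocal _).mpr hu
  have hval := mltj6Ev_isU d Q hthr hU
  -- its value
  have hev : mltj6Ev d Q hthr ⟨_, hU.1⟩ = 1 - (ε : Qb) * ((a : ↥(tbFix 𝔓 H)) : Qb) := by
    have h1 : (⟨_, hU.1⟩ : ↥d.𝒩.A) = 1 - x * a' := Subtype.ext rfl
    rw [h1, map_sub, map_one, map_mul, ha', mltj6Ev_const d Q hthr (a : ↥(tbFix 𝔓 H))]
  rw [hev] at hval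
  -- but it lies in the maximal ideal
  have hmem : (1 - ε * tbFixIncl 𝔓 H a : ↥𝔓.P) ∈ IsLocalRing.maximalIdeal ↥𝔓.P := by
    rw [← IsLocalRing.residue_eq_zero_iff, map_sub, map_one, map_mul]
    have h2 : IsLocalRing.residue ↥𝔓.P (tbFixIncl 𝔓 H a) = IsLocalRing.residue ↥𝔓.P ε' := ha
    rw [h2, ← map_mul, hε', map_one, sub_self]
  rw [tb_mem_maximalIdeal_iff] at hmem
  have hcoe : ((1 - ε * tbFixIncl 𝔓 H a : ↥𝔓.P) : Qb) =
      1 - (ε : Qb) * ((a : ↥(tbFix 𝔓 H)) : Qb) := by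
    push_cast
    rw [coe_tbFixIncl]
  rw [hcoe] at hmem
  rcases hmem with h0 | h0
  · exact hval.1 h0
  · rw [hval.2] at h0
    exact lt_irrefl _ h0

/-- the chart ring lies in the local ring of the node -/
theorem mltj9_B_le_A {b : ↥(tbLevF 𝔓 (N' * 𝔓.p) H)} (hb : b ∈ d.C.P.B) : b ∈ d.𝒩.A := by
  show b ∈ d.𝒩.P.B
  rw [mltj6_nodeAt_B]
  exact d.C.P.B_le_loc _ hb

/-- the elements of the maximal ideal `𝔫_P` of the chart ring are non-units of the local ring -/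
theorem mltj9_nonunit_of_mem_n₁ {b : ↥d.C.P.B} (hb : b ∈ d.C.n₁ P d.hP) :
    ¬ IsUnit (⟨(b : ↥(tbLevF 𝔓 (N' * 𝔓.p) H)), mltj9_B_le_A d b.2⟩ : ↥d.𝒩.A) := by
  intro hu
  obtain ⟨y, hy⟩ := isUnit_iff_exists_inv.mp hu
  have hy1 : (b : ↥(tbLevF 𝔓 (N' * 𝔓.p) H)) * (y : ↥(tbLevF 𝔓 (N' * 𝔓.p) H)) = 1 :=
    congrArg Subtype.val hy
  have hyloc : (y : ↥(tbLevF 𝔓 (N' * 𝔓.p) H)) ∈ d.C.P.loc (d.C.n₁ P d.hP) := by
    rw [← mltj6_nodeAt_B]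
    exact y.2
  obtain ⟨c, hc, hcy⟩ := d.C.P.mem_loc_iff.mp hyloc
  apply hc
  have h1 : c = ⟨_, hcy⟩ * b := by
    apply Subtype.ext
    show (c : ↥(tbLevF 𝔓 (N' * 𝔓.p) H)) =
      (c : ↥(tbLevF 𝔓 (N' * 𝔓.p) H)) * (y : ↥(tbLevF 𝔓 (N' * 𝔓.p) H)) *
        (b : ↥(tbLevF 𝔓 (N' * 𝔓.p) H))
    rw [mul_assoc, mul_comm (y : ↥(tbLevF 𝔓 (N' * 𝔓.p) H)), hy1, mul_one]
  rw [h1]
  exact Ideal.mul_mem_left _ _ hb

/-- **the value at a point through the node reduces to the value of the reduction at the node** -/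
theorem mltj9_ev_res {b : ↥(tbLevF 𝔓 (N' * 𝔓.p) H)} (hb : b ∈ d.C.P.B) :
    IsLocalRing.residue ↥𝔓.P ⟨mltj6Ev d Q hthr ⟨b, mltj9_B_le_A d hb⟩,
        mltj6Ev_mem_P d Q hthr _⟩ = d.C.ev₁ P d.hP ⟨b, hb⟩ := by
  obtain ⟨a, ha⟩ := tbFixRes_surjective 𝔓 H (d.C.ev₁ P d.hP ⟨b, hb⟩)
  -- `b - a ∈ 𝔫_P`
  have hmem : (⟨b, hb⟩ - d.C.ofA a : ↥d.C.P.B) ∈ d.C.n₁ P d.hP := by
    rw [d.C.mem_n₁, map_sub, d.C.ev₁_ofA]
    show _ - tbFixRes 𝔓 H a = 0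
    rw [ha, sub_self]
  have hnu := mltj9_nonunit_of_mem_n₁ d hmem
  have h1 := mltj9_ev_nonunit d Q hthr _ hnu
  rw [← IsLocalRing.residue_eq_zero_iff] at h1
  -- compute the value
  have h2 : (⟨((⟨b, hb⟩ - d.C.ofA a : ↥d.C.P.B) : ↥(tbLevF 𝔓 (N' * 𝔓.p) H)),
      mltj9_B_le_A d (⟨b, hb⟩ - d.C.ofA a : ↥d.C.P.B).2⟩ : ↥d.𝒩.A) =
      ⟨b, mltj9_B_le_A d hb⟩ - ⟨_, mltj9_const_mem_A d a⟩ := Subtype.ext rfl
  have h3 : (⟨mltj6Ev d Q hthr ⟨((⟨b, hb⟩ - d.C.ofA a : ↥d.C.P.B) : ↥(tbLevF 𝔓 (N' * 𝔓.p) H)),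
      mltj9_B_le_A d (⟨b, hb⟩ - d.C.ofA a : ↥d.C.P.B).2⟩, mltj6Ev_mem_P d Q hthr _⟩ : ↥𝔓.P) =
      ⟨mltj6Ev d Q hthr ⟨b, mltj9_B_le_A d hb⟩, mltj6Ev_mem_P d Q hthr _⟩ - tbFixIncl 𝔓 H a := by
    apply Subtype.ext
    show mltj6Ev d Q hthr _ = mltj6Ev d Q hthr ⟨b, mltj9_B_le_A d hb⟩ -
      ((a : ↥(tbFix 𝔓 H)) : Qb)
    rw [h2, map_sub, mltj6Ev_const d Q hthr (a : ↥(tbFix 𝔓 H))]
  rw [h3, map_sub, sub_eq_zero] at h1
  rw [h1, ← ha]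
  rfl

end Fermat.Agent.MLT
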