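/-
MLT / [L2] / P9 (γ-S), piece (E') (helper8, for helper1): **the norm lift**.

`K₀` any level prime to `𝔓.p` (possibly NOT rigid), `e` with `K = K₀ e` rigid.  A power of every function of
`F̄_{K₀}` integral over `𝕜[j̄]` is the reduction of a Gauss element of `F_{K₀}^{ℚ̄}` integral over `ℚ̄[j]`:
lift `ᾱ t` at the rigid level `K` ((GR1) for the chart `j`) and take the norm along `α : F_{K₀} → F_K`
(`DlhRedExt.norm_red`; the degrees in characteristic `0` and `p` agree: both are `ψ(K) / ψ(K₀)`).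

* `mltj9n_finrank_eq` : `[F_K : α F_{K₀}] = [F̄_K : ᾱ F̄_{K₀}]` for ALL levels prime to `p`;
* **`mltj9_norm_lift`**.
-/
import Mathlib
import Fermat.Agent.Lib.Delta.Hecke.Gauss
import Fermat.Agent.Lib.T2.Inst.GoodRedH
import Fermat.Agent.Lib.T2.Desc.LevelMod
import Fermat.Agent.Lib.T2.Inst.SetupGen
import Fermat.Agent.Lib.T1.Inst.UpperQ
import Fermat.Agent.Lib.S24.Count

set_option autoImplicit false
set_option linter.unusedSectionVars false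
set_option linter.unusedVariables false
set_option linter.style.haveILetI false
set_option synthInstance.maxHeartbeats 400000
set_option maxHeartbeats 1000000

namespace Fermat.Agent.MLT

open ModularCurve HahnSeries Fermat.Agent.T1 Fermat.Agent.T2 Fermat.Agent.TW Fermat.Agent.S24Lib
  Fermat.Agent.S05Lib AlgebraicCurve Fermat.Agent.Curve Fermat.Agent.T3 IntermediateField Module
  Fermat.Agent.Delta

local notation "Qb" => AlgebraicClosure ℚ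

noncomputable section

attribute [local instance 5000] dlhAlgK

variable (𝔓 : FFPlace) (K₀ e : ℕ) [NeZero K₀] [NeZero e]

/-- `α j = j` -/
theorem mltj9n_alpha_J : heckeAlphaBar Qb K₀ e (tbJ K₀) = tbJ (K₀ * e) :=
  Subtype.ext (coe_heckeAlphaBar K₀ e _)

/-- the degree of `α` in characteristic `0` -/
theorem mltj9n_finrank_zero :
    dedekindPsi K₀ * (@finrank ↥(modularFunctionFieldBar K₀) ↥(modularFunctionFieldBar (K₀ * e)) _ _
      (algebraAlong (heckeAlphaBar Qb K₀ e)).toModule) = dedekindPsi (K₀ * e) := by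
  have h1 := dlh_finrank_tower (heckeAlphaBar Qb K₀ e) (tbJ K₀)
  rw [mltj9n_alpha_J] at h1
  have h2 : tbJ K₀ = jBar K₀ := Subtype.ext rfl
  have h3 : tbJ (K₀ * e) = jBar (K₀ * e) := Subtype.ext rfl
  rw [h2, h3, finrank_jBar K₀, finrank_jBar (K₀ * e)] at h1
  exact h1

/-- the degree of `ᾱ` in characteristic `p` -/
theorem mltj9n_finrank_p (hK₀ : ¬ 𝔓.p ∣ K₀) (hK : ¬ 𝔓.p ∣ K₀ * e) :
    dedekindPsi K₀ * (@finrank ↥(tbBarF 𝔓 K₀) ↥(tbBarF 𝔓 (K₀ * e)) _ _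
      (algebraAlong (dlhAlphaC (IsLocalRing.ResidueField ↥𝔓.P) K₀ e)).toModule) =
      dedekindPsi (K₀ * e) := by
  have h1 := dlh_finrank_tower (dlhAlphaC (IsLocalRing.ResidueField ↥𝔓.P) K₀ e) (tbBarJ 𝔓 K₀)
  rw [dlh_alpha_barJ, tbq_finrank_bar (t3aOK 𝔓 K₀ hK₀) hK₀,
    tbq_finrank_bar (t3aOK 𝔓 (K₀ * e) hK) hK] at h1
  exact h1

theorem mltj9n_psi_pos (N : ℕ) [NeZero N] : 0 < dedekindPsi N := by
  rw [← finrank_jBar N]
  haveI : FiniteDimensional ↥Qb⟮jBar N⟯ ↥(modularFunctionFieldBar N) :=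
    (isFunctionFieldGen_jBar N).finite
  exact Module.finrank_pos

/-- **the degrees of `α` and of `ᾱ` agree**, for all levels prime to `p` -/
theorem mltj9n_finrank_eq (hK₀ : ¬ 𝔓.p ∣ K₀) (hK : ¬ 𝔓.p ∣ K₀ * e) :
    (@finrank ↥(modularFunctionFieldBar K₀) ↥(modularFunctionFieldBar (K₀ * e)) _ _
      (algebraAlong (heckeAlphaBar Qb K₀ e)).toModule) =
    (@finrank ↥(tbBarF 𝔓 K₀) ↥(tbBarF 𝔓 (K₀ * e)) _ _
      (algebraAlong (dlhAlphaC (IsLocalRing.ResidueField ↥𝔓.P) K₀ e)).toModule) := by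
  have h1 := mltj9n_finrank_zero K₀ e
  have h2 := mltj9n_finrank_p 𝔓 K₀ e hK₀ hK
  exact Nat.eq_of_mul_eq_mul_left (mltj9n_psi_pos K₀) (h1.trans h2.symm)

theorem mltj9n_finrank_pos (hK₀ : ¬ 𝔓.p ∣ K₀) (hK : ¬ 𝔓.p ∣ K₀ * e) :
    0 < (@finrank ↥(tbBarF 𝔓 K₀) ↥(tbBarF 𝔓 (K₀ * e)) _ _
      (algebraAlong (dlhAlphaC (IsLocalRing.ResidueField ↥𝔓.P) K₀ e)).toModule) := by
  have h2 := mltj9n_finrank_p 𝔓 K₀ e hK₀ hK
  have h3 := mltj9n_psi_pos (K₀ * e)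
  rw [← h2] at h3
  exact Nat.pos_of_mul_pos_left h3

open Polynomial in
/-- **the norm lift**: a power of every `𝕜[j̄]`-integral function of the (possibly non-rigid) level `K₀`
lifts to a Gauss element of `F_{K₀}^{ℚ̄}`, integral over `ℚ̄[j]` -/
theorem mltj9_norm_lift (hK₀ : ¬ 𝔓.p ∣ K₀) (hK : ¬ 𝔓.p ∣ K₀ * e)
    (h49 : 4 ∣ K₀ * e ∨ 9 ∣ K₀ * e) (t : ↥(tbBarF 𝔓 K₀))
    (ht : IsIntegral ↥(Algebra.adjoin (IsLocalRing.ResidueField ↥𝔓.P) {tbBarJ 𝔓 K₀}) t) :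
    ∃ (n : ℕ) (G : ↥(modularFunctionFieldBar K₀)), 0 < n ∧
      IsIntegral ↥(Algebra.adjoin Qb {tbJ K₀}) G ∧
      ∃ hG : G ∈ tbOvQ 𝔓 K₀, tbResQ (t3aOK 𝔓 K₀ hK₀) ⟨G, hG⟩ = t ^ n := by
  -- `ᾱ t` is integral over `𝕜[j̄_K]`
  have hαt : IsIntegral ↥(Algebra.adjoin (IsLocalRing.ResidueField ↥𝔓.P) {tbBarJ 𝔓 (K₀ * e)})
      (dlhAlphaC (IsLocalRing.ResidueField ↥𝔓.P) K₀ e t) := by
    have h1 := t2i_isIntegral_algHom (dlhAlphaC (IsLocalRing.ResidueField ↥𝔓.P) K₀ e) ht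
    rwa [dlh_alpha_barJ] at h1
  -- the lift at the rigid level `K`, inertia level `⊤`
  obtain ⟨f, hf, hfint, hfres⟩ := t2gr_GR1_j 𝔓 ⊤ (K₀ * e) hK h49 hαt
  set g : ↥(modularFunctionFieldBar (K₀ * e)) := tbPhiF 𝔓 (K₀ * e) ⊤ f with hg
  have hfG : TbGauss (tbFixO 𝔓 ⊤) (tbFixRes 𝔓 ⊤)
      ((f : ↥(tbLevF 𝔓 (K₀ * e) ⊤)) : LaurentSeries ↥(tbFix 𝔓 ⊤)) := hf
  have hgO : g ∈ tbOvQ 𝔓 (K₀ * e) := by
    rw [mem_tbOvQ, hg, coe_tbPhiF]
    exact tbPhi_gauss 𝔓 ⊤ hfG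
  have hgres : tbResQ (t3aOK 𝔓 (K₀ * e) hK) ⟨g, hgO⟩ =
      dlhAlphaC (IsLocalRing.ResidueField ↥𝔓.P) K₀ e t := by
    apply Subtype.ext
    rw [coe_tbResQ]
    show tbRhoFun 𝔓.P (IsLocalRing.residue ↥𝔓.P)
      ((tbPhiF 𝔓 (K₀ * e) ⊤ f : ↥(modularFunctionFieldBar (K₀ * e))) : LaurentSeries Qb) = _
    rw [coe_tbPhiF, tbPhi_rho 𝔓 ⊤ hfG, ← coe_t2iBaseFix_res 𝔓 ⊤ (K₀ * e) hK f hf, hfres]
  have hgint : IsIntegral ↥(Algebra.adjoin Qb {tbJ (K₀ * e)}) g := by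
    have h1 := (t2d_isIntegral_tbPhiF_iff 𝔓 (K₀ * e) ⊤ (tbLevJ 𝔓 (K₀ * e) ⊤) f).mp hfint
    rwa [tbPhiF_tbLevJ] at h1
  -- the norm
  letI := algebraAlong (heckeAlphaBar Qb K₀ e)
  letI := algebraAlong (dlhAlphaC (IsLocalRing.ResidueField ↥𝔓.P) K₀ e)
  have hpos := mltj9n_finrank_pos 𝔓 K₀ e hK₀ hK
  haveI : FiniteDimensional ↥(tbBarF 𝔓 K₀) ↥(tbBarF 𝔓 (K₀ * e)) :=
    FiniteDimensional.of_finrank_pos hpos
  have d := dlh_redExt 𝔓 K₀ hK₀ e hK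
  obtain ⟨hmem, hres⟩ := d.norm_red (mltj9n_finrank_eq 𝔓 K₀ e hK₀ hK) ⟨g, hgO⟩
  refine ⟨finrank ↥(tbBarF 𝔓 K₀) ↥(tbBarF 𝔓 (K₀ * e)),
    Algebra.norm ↥(modularFunctionFieldBar K₀) g, hpos, ?_, hmem, ?_⟩
  · -- integrality of the norm
    have hmemR : ∀ q : Qb[X], aeval (tbJ K₀) q ∈ Algebra.adjoin Qb {tbJ K₀} := by
      intro q
      rw [Algebra.adjoin_singleton_eq_range_aeval]
      exact ⟨q, rfl⟩
    haveI : IsScalarTower ↥(Algebra.adjoin Qb {tbJ K₀}) ↥(modularFunctionFieldBar K₀)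
        ↥(modularFunctionFieldBar (K₀ * e)) := IsScalarTower.of_algebraMap_eq (fun _ => rfl)
    have hgR : IsIntegral ↥(Algebra.adjoin Qb {tbJ K₀}) g := by
      obtain ⟨m, q, hq⟩ := (t2d_isIntegral_adjoin_iff (K := Qb) (tbJ (K₀ * e)) g).mp hgint
      refine ⟨X ^ m + ∑ i : Fin m, Polynomial.C (⟨aeval (tbJ K₀) (q i), hmemR (q i)⟩ :
        ↥(Algebra.adjoin Qb {tbJ K₀})) * X ^ (i : ℕ),
        Polynomial.monic_X_pow_add (Polynomial.degree_sum_fin_lt _), ?_⟩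
      rw [Polynomial.eval₂_add, Polynomial.eval₂_pow, Polynomial.eval₂_X,
        Polynomial.eval₂_finsetSum]
      simp only [Polynomial.eval₂_mul, Polynomial.eval₂_C, Polynomial.eval₂_pow,
        Polynomial.eval₂_X]
      rw [← hq]
      congr 1
      refine Finset.sum_congr rfl fun i _ => ?_
      congr 1
      show heckeAlphaBar Qb K₀ e (aeval (tbJ K₀) (q i)) = aeval (tbJ (K₀ * e)) (q i)
      rw [← mltj9n_alpha_J, Polynomial.aeval_algHom_apply]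
    exact Algebra.isIntegral_norm ↥(modularFunctionFieldBar K₀) hgR
  · rw [hres, hgres]
    exact Algebra.norm_algebraMap t

end

end Fermat.Agent.MLT
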