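/-
MLT / [L2] / P9 (helper1), part 6: **supersingular places of the level `K = K₀ e` joined by a point of the level
`K₀ p` have the same restriction to `F̄_{K₀}`**.

`P, P' ∈ Σ_K`, `Y` through the node over `P`, `Y'` through the node over `P'`, and `Y`, `Y'` have the same restriction
to `F_{K₀ p} ⊗ ℚ̄`.  Then `P` and `P'` restrict to the same place of `F̄_{K₀}` (`mltj9_restrict_eq`), in particular
`mltjSame P P'` (`mltj9_same`).  The input `Mltj9NormLift` (a power of every `𝕜[j̄]`-integral function of the level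
`K₀` lifts to a Gauss element integral over `ℚ̄[j]`) is proved by the norm from the rigid level (`P9/Norm.lean`).
-/
import Mathlib
import Fermat.Agent.Lib.MLT.L2.P9.Alpha
import Fermat.Agent.Lib.MLT.L2.P6.ChartPts
import Fermat.Agent.Lib.MLT.Contracts.L2JLTwo

set_option autoImplicit false
set_option linter.unusedSectionVars false
set_option linter.unusedVariables false
set_option linter.style.haveILetI false
set_option synthInstance.maxHeartbeats 400000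
set_option maxHeartbeats 1000000

open HahnSeries ModularCurve Fermat.Agent.T1 Fermat.Agent.T2 Fermat.Agent.T4 Fermat.Agent.TW
  Fermat.Agent.S05Lib Fermat.Agent.S24Lib IntermediateField AlgebraicCurve Fermat.Agent.Curve Module
  Fermat.Agent.S33 Fermat.Agent.S33Q Fermat.Agent.Delta Fermat.Agent.Curve.PlaceAux Fermat.Agent.T3
  Fermat.Agent.Mazur

noncomputable section

namespace Fermat.Agent.MLT

local notation "Qb" => AlgebraicClosure ℚ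

attribute [local instance] t2i_dvr t2i_isAlgClosed t2i_charP t2i_fact
attribute [local instance 10000] dliAlgF dliAlgE
attribute [local instance 5000] dlhAlgK

variable (𝔓 : FFPlace) (K₀ e : ℕ) [NeZero K₀] [NeZero e] (hK₀ : ¬ 𝔓.p ∣ K₀)
  (hK : ¬ 𝔓.p ∣ K₀ * e) (h49 : 4 ∣ K₀ * e ∨ 9 ∣ K₀ * e)

/-- **the norm-lift property**: a power of every `𝕜[j̄]`-integral function of the level `K₀` is the reduction of a
Gauss element of `F_{K₀} ⊗ ℚ̄` which is integral over `ℚ̄[j]` -/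
def Mltj9NormLift : Prop :=
  ∀ t : ↥(tbBarF 𝔓 K₀),
    IsIntegral ↥(Algebra.adjoin (IsLocalRing.ResidueField ↥𝔓.P) {tbBarJ 𝔓 K₀}) t →
    ∃ (n : ℕ) (G : ↥(modularFunctionFieldBar K₀)), 0 < n ∧
      IsIntegral ↥(Algebra.adjoin Qb {tbJ K₀}) G ∧
      ∃ hG : G ∈ tbOvQ 𝔓 K₀, tbResQ (t3aOK 𝔓 K₀ hK₀) ⟨G, hG⟩ = t ^ n

/-- the inclusion `F_{K₀ p} ⊂ F_{K₀ e p}` -/
abbrev mltj9Iota : ↥(modularFunctionFieldBar (K₀ * 𝔓.p)) →ₐ[Qb]
    ↥(modularFunctionFieldBar (K₀ * e * 𝔓.p)) :=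
  dlwIncl (N := K₀ * 𝔓.p) (K := K₀ * e * 𝔓.p) ⟨e, by ring⟩

theorem mltj9Iota_integral : (mltj9Iota 𝔓 K₀ e).toRingHom.IsIntegral :=
  dlwIncl_integral (N := K₀ * 𝔓.p) (K := K₀ * e * 𝔓.p) ⟨e, by ring⟩

variable {𝔓 K₀ e hK₀ hK h49}

/-- **transfer of values**: a Gauss element `G` of the level `K₀`, integral over `ℚ̄[j]`, has at the restriction of
`Y` to the level `K₀ p` a `𝔓`-integral value `c`, and `(c mod 𝔓)` is the value of the reduction of `G` at the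
restriction of `P` to `F̄_{K₀}` -/
theorem mltj9_val_transfer
    {P : Place (IsLocalRing.ResidueField ↥𝔓.P) ↥(tbBarF 𝔓 (K₀ * e))}
    {Y : Place Qb ↥(modularFunctionFieldBar (K₀ * e * 𝔓.p))}
    (hthr : mltj9Thr 𝔓 (K₀ * e) hK h49 P Y) {G : ↥(modularFunctionFieldBar K₀)}
    (hG : G ∈ tbOvQ 𝔓 K₀) (hint : IsIntegral ↥(Algebra.adjoin Qb {tbJ K₀}) G) :
    ∃ (c : Qb) (hc : c ∈ 𝔓.P),
      OrdGE (Y.restrictAlong (mltj9Iota 𝔓 K₀ e) (mltj9Iota_integral 𝔓 K₀ e))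
        (heckeAlphaBar Qb K₀ 𝔓.p G - algebraMap Qb ↥(modularFunctionFieldBar (K₀ * 𝔓.p)) c) 1 ∧
      DlgVal (P.restrictAlong (dlhAlphaC (IsLocalRing.ResidueField ↥𝔓.P) K₀ e)
          (mzr5i_alphaC_integral 𝔓 K₀ e))
        (tbResQ (t3aOK 𝔓 K₀ hK₀) ⟨G, hG⟩) (IsLocalRing.residue ↥𝔓.P ⟨c, hc⟩) := by
  set G' : ↥(modularFunctionFieldBar (K₀ * e)) := heckeAlphaBar Qb K₀ e G with hG'def
  have hG' : G' ∈ tbOvQ 𝔓 (K₀ * e) := by
    rw [mem_tbOvQ, hG'def, coe_heckeAlphaBar]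
    exact hG
  have hint' : IsIntegral ↥(Algebra.adjoin Qb {tbJ (K₀ * e)}) G' := mltj9_alphaBar_int K₀ e hint
  obtain ⟨c, hc, h1, h2⟩ := mltj9_lift hthr (mltj9_alpha_mem 𝔓 (K₀ * e) hK hG')
    (mltj9_alpha_int 𝔓 (K₀ * e) hK hint')
  refine ⟨c, hc, ?_, ?_⟩
  · have hA : heckeAlphaBar Qb (K₀ * e) 𝔓.p G' =
        mltj9Iota 𝔓 K₀ e (heckeAlphaBar Qb K₀ 𝔓.p G) := by
      apply Subtype.ext
      rw [coe_heckeAlphaBar, hG'def, coe_heckeAlphaBar, coe_dlwIncl, coe_heckeAlphaBar]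
    rw [hA] at h1
    exact mzr5_value_of_map (mltj9Iota 𝔓 K₀ e) (mltj9Iota_integral 𝔓 K₀ e) Y h1
  · rw [mltj9_alpha_res 𝔓 (K₀ * e) hK hG'] at h2
    have hB : tbResQ (t3aOK 𝔓 (K₀ * e) hK) ⟨G', hG'⟩ =
        dlhAlphaC (IsLocalRing.ResidueField ↥𝔓.P) K₀ e (tbResQ (t3aOK 𝔓 K₀ hK₀) ⟨G, hG⟩) := by
      apply Subtype.ext
      rw [coe_tbResQ, coe_dlhAlphaC, coe_tbResQ]
      show tbRhoFun 𝔓.P (IsLocalRing.residue ↥𝔓.P)
        ((heckeAlphaBar Qb K₀ e G : ↥(modularFunctionFieldBar (K₀ * e))) : LaurentSeries Qb) = _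
      rw [coe_heckeAlphaBar]
    rw [hB] at h2
    exact mzr5_value_of_map (dlhAlphaC (IsLocalRing.ResidueField ↥𝔓.P) K₀ e)
      (mzr5i_alphaC_integral 𝔓 K₀ e) P h2

/-- **the two places have the same restriction to `F̄_{K₀}`** -/
theorem mltj9_restrict_eq (hN : Mltj9NormLift 𝔓 K₀ hK₀)
    {P P' : Place (IsLocalRing.ResidueField ↥𝔓.P) ↥(tbBarF 𝔓 (K₀ * e))}
    {Y Y' : Place Qb ↥(modularFunctionFieldBar (K₀ * e * 𝔓.p))}
    (hY : mltj9Thr 𝔓 (K₀ * e) hK h49 P Y) (hY' : mltj9Thr 𝔓 (K₀ * e) hK h49 P' Y')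
    (hres : Y.restrictAlong (mltj9Iota 𝔓 K₀ e) (mltj9Iota_integral 𝔓 K₀ e) =
      Y'.restrictAlong (mltj9Iota 𝔓 K₀ e) (mltj9Iota_integral 𝔓 K₀ e)) :
    P.restrictAlong (dlhAlphaC (IsLocalRing.ResidueField ↥𝔓.P) K₀ e)
        (mzr5i_alphaC_integral 𝔓 K₀ e) =
      P'.restrictAlong (dlhAlphaC (IsLocalRing.ResidueField ↥𝔓.P) K₀ e)
        (mzr5i_alphaC_integral 𝔓 K₀ e) := by
  set P₀ := P.restrictAlong (dlhAlphaC (IsLocalRing.ResidueField ↥𝔓.P) K₀ e)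
    (mzr5i_alphaC_integral 𝔓 K₀ e) with hP₀
  set P₀' := P'.restrictAlong (dlhAlphaC (IsLocalRing.ResidueField ↥𝔓.P) K₀ e)
    (mzr5i_alphaC_integral 𝔓 K₀ e) with hP₀'
  -- the common value
  have key : ∀ (G : ↥(modularFunctionFieldBar K₀)) (hG : G ∈ tbOvQ 𝔓 K₀),
      IsIntegral ↥(Algebra.adjoin Qb {tbJ K₀}) G →
      ∃ a : IsLocalRing.ResidueField ↥𝔓.P,
        DlgVal P₀ (tbResQ (t3aOK 𝔓 K₀ hK₀) ⟨G, hG⟩) a ∧
        DlgVal P₀' (tbResQ (t3aOK 𝔓 K₀ hK₀) ⟨G, hG⟩) a := by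
    intro G hG hint
    obtain ⟨c, hc, h1, h2⟩ := mltj9_val_transfer (hK₀ := hK₀) hY hG hint
    obtain ⟨c', hc', h1', h2'⟩ := mltj9_val_transfer (hK₀ := hK₀) hY' hG hint
    rw [← hres] at h1'
    have hcc : c = c' := const_unique_of_ordGE_one _ h1 h1'
    subst hcc
    exact ⟨_, h2, h2'⟩
  have hz := tbq_bar_isFunctionFieldGen 𝔓 K₀
  haveI := tbq_bar_isSeparable (𝔓 := 𝔓) (N := K₀) hK₀
  -- `j̄` is regular at both places
  have hJ : 0 ≤ P₀.ord (tbBarJ 𝔓 K₀) ∧ 0 ≤ P₀'.ord (tbBarJ 𝔓 K₀) := by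
    obtain ⟨a, ha, ha'⟩ := key (tbJ K₀) tbJ_mem_tbOvQ (tb_isIntegral_self _)
    rw [tbResQ_tbJ] at ha ha'
    exact ⟨ord_nonneg_of_mem P₀ ha.mem, ord_nonneg_of_mem P₀' ha'.mem⟩
  refine mltj6_place_ext hz hJ.1 hJ.2 fun f hf h0 => ?_
  rcases h0 with h0 | h0
  · exact Or.inl h0
  obtain ⟨n, G, hn, hint, hG, hGf⟩ := hN f hf
  obtain ⟨a, ha, ha'⟩ := key G hG hint
  rw [hGf] at ha ha'
  have hz0 : DlgVal P₀ (f ^ n) 0 := by
    rw [DlgVal.zero_iff]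
    right
    rw [t2ca_ord_pow]
    have : (0 : ℤ) < (n : ℤ) := by exact_mod_cast hn
    positivity
  have ha0 : a = 0 := ha.unique hz0
  rw [ha0, DlgVal.zero_iff] at ha'
  rcases ha' with h1 | h1
  · exact Or.inl (pow_eq_zero_iff (by omega) |>.mp h1)
  · right
    rw [t2ca_ord_pow] at h1
    have : (0 : ℤ) < (n : ℤ) := by exact_mod_cast hn
    by_contra hcon
    push Not at hcon
    nlinarith

/-- **`mltjSame`** for places joined by a point of the level `K₀ p` -/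
theorem mltj9_same (hN : Mltj9NormLift 𝔓 K₀ hK₀)
    {P P' : Place (IsLocalRing.ResidueField ↥𝔓.P) ↥(tbBarF 𝔓 (K₀ * e))}
    {Y Y' : Place Qb ↥(modularFunctionFieldBar (K₀ * e * 𝔓.p))}
    (hY : mltj9Thr 𝔓 (K₀ * e) hK h49 P Y) (hY' : mltj9Thr 𝔓 (K₀ * e) hK h49 P' Y')
    (hres : Y.restrictAlong (mltj9Iota 𝔓 K₀ e) (mltj9Iota_integral 𝔓 K₀ e) =
      Y'.restrictAlong (mltj9Iota 𝔓 K₀ e) (mltj9Iota_integral 𝔓 K₀ e)) :
    mltjSame 𝔓 K₀ e hK h49 P P' := by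
  intro f _ a b ha hb
  have h0 := mltj9_restrict_eq hN hY hY' hres
  have ha₀ := mzr5_value_of_map (dlhAlphaC (IsLocalRing.ResidueField ↥𝔓.P) K₀ e)
    (mzr5i_alphaC_integral 𝔓 K₀ e) P ha
  have hb₀ := mzr5_value_of_map (dlhAlphaC (IsLocalRing.ResidueField ↥𝔓.P) K₀ e)
    (mzr5i_alphaC_integral 𝔓 K₀ e) P' hb
  rw [← h0] at hb₀
  exact DlgVal.unique ha₀ hb₀

end Fermat.Agent.MLT
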