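/-
MLT / [L2] / P9 (helper1), part 1: **the slope vector of `D − ϖ¹²`** (`D = Δ(q)/Δ(q^p)` the vertical unit of the
level `p`), from helper8's exact law `MltJ6LawQ`.

* `mltj9_node_sub`   : abstract node: for `D` with `ord_W D = 0` and a constant `θ` with
                       `0 < ord θ < ord_{W'} D`: `z = D − θ` has `ord_W z = 0`, `ord_{W'} z = ord θ`,
                       `slope z = slope D`;
* `mltj9_slope_vert` : `slope(D_H) = 12` at every node datum of every level;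
* **`mltj9_sl_vert`** : at a level `H` with a uniformiser `ϖ₀`, `ϖ₀ ^ m = p`, `m ≥ 2`:
                       `sl (div (D − ϖ₀¹²))_P · m = 12 m − 12` at EVERY node datum over `P`.
-/
import Mathlib
import Fermat.Agent.Lib.MLT.L2.P6.LawDef
import Fermat.Agent.Lib.MLT.L2.P6.CharI

set_option autoImplicit false
set_option linter.unusedSectionVars false
set_option linter.unusedVariables false
set_option linter.style.haveILetI false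
set_option synthInstance.maxHeartbeats 400000
set_option maxHeartbeats 1000000

open HahnSeries ModularCurve Fermat.Agent.T1 Fermat.Agent.T2 Fermat.Agent.T4 Fermat.Agent.TW
  Fermat.Agent.S05Lib Fermat.Agent.S24Lib IntermediateField AlgebraicCurve Fermat.Agent.Curve Module
  Fermat.Agent.S33 Fermat.Agent.S33Q Fermat.Agent.Delta Fermat.Agent.Curve.PlaceAux

noncomputable section

namespace Fermat.Agent.MLT

local notation "Qb" => AlgebraicClosure ℚ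

attribute [local instance] t2i_dvr t2i_isAlgClosed t2i_charP t2i_fact
attribute [local instance 10000] dliAlgF dliAlgE

section Abs

variable {L F : Type*} [Field L] [Field F] [Algebra L F]

/-- **a vertical function minus a small constant** at a node in normal form -/
theorem mltj9_node_sub (𝒩 : DlNode L F) {D : F} {θ : L} (hD0 : D ≠ 0) (hθ0 : θ ≠ 0)
    (hDW : 𝒩.oW D = 0) (hθ : 0 < dlOrd 𝒩.O θ) (hDW' : dlOrd 𝒩.O θ < 𝒩.oW' D) :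
    D - algebraMap L F θ ≠ 0 ∧ 𝒩.oW (D - algebraMap L F θ) = 0 ∧
      𝒩.oW' (D - algebraMap L F θ) = dlOrd 𝒩.O θ ∧
      𝒩.slope (D - algebraMap L F θ) = 𝒩.slope D := by
  obtain ⟨hcW, hcW', -⟩ := dln_const 𝒩.toDlLocal hθ0
  have hθF : algebraMap L F θ ≠ 0 := (_root_.map_ne_zero _).mpr hθ0
  have hnθF : -algebraMap L F θ ≠ 0 := neg_ne_zero.mpr hθF
  have hoW : 𝒩.oW (D - algebraMap L F θ) = 0 := by
    have h1 : dlOrd 𝒩.W (D + -algebraMap L F θ) = dlOrd 𝒩.W D :=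
      dlOrd_add_of_lt 𝒩.W hD0 (Or.inr (by
        rw [dlOrd_neg]
        have h2 : dlOrd 𝒩.W D = 0 := hDW
        have h3 : dlOrd 𝒩.W (algebraMap L F θ) = dlOrd 𝒩.O θ := hcW
        omega))
    rw [← sub_eq_add_neg] at h1
    exact h1.trans hDW
  have hz0 : D - algebraMap L F θ ≠ 0 := by
    intro h0
    have h1 : D = algebraMap L F θ := sub_eq_zero.mp h0
    have h2 : 𝒩.oW D = dlOrd 𝒩.O θ := by rw [h1]; exact hcW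
    omega
  have hoW' : 𝒩.oW' (D - algebraMap L F θ) = dlOrd 𝒩.O θ := by
    have h1 : dlOrd 𝒩.W' (-algebraMap L F θ + D) = dlOrd 𝒩.W' (-algebraMap L F θ) :=
      dlOrd_add_of_lt 𝒩.W' hnθF (Or.inr (by
        rw [dlOrd_neg]
        have h3 : dlOrd 𝒩.W' (algebraMap L F θ) = dlOrd 𝒩.O θ := hcW'
        have h4 : dlOrd 𝒩.O θ < dlOrd 𝒩.W' D := hDW'
        omega))
    rw [dlOrd_neg, neg_add_eq_sub] at h1
    exact h1.trans hcW'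
  refine ⟨hz0, hoW, hoW', ?_⟩
  obtain ⟨u, hu, hc⟩ := 𝒩.slope_spec hD0
  refine 𝒩.slope_eq hz0 hu ?_
  rw [𝒩.nrm_of_oW_zero hoW]
  rw [𝒩.nrm_of_oW_zero hDW] at hc
  refine DlLocal.CongW.trans 𝒩.toDlLocal (Or.inr ?_) hc
  have e : D - algebraMap L F θ - D = -algebraMap L F θ := by ring
  rw [e]
  show 0 < dlOrd 𝒩.W (-algebraMap L F θ)
  rw [dlOrd_neg]
  have h3 : dlOrd 𝒩.W (algebraMap L F θ) = dlOrd 𝒩.O θ := hcW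
  omega

end Abs

section Inst

variable {𝔓 : FFPlace} {K : ℕ} [NeZero K] {hK : ¬ 𝔓.p ∣ K} {h49 : 4 ∣ K ∨ 9 ∣ K}
  {H : Subgroup 𝔓.I} [H.FiniteIndex]
  {P : Place (IsLocalRing.ResidueField ↥𝔓.P) ↥(tbBarF 𝔓 K)}

/-- the factorisation of `p` relative to the uniformiser of a node datum -/
theorem mltj9_exists_unit (d : MltJ6NodeAt 𝔓 K hK h49 H P) {ϖ₀ : ↥(tbFixO 𝔓 H)}
    (hϖ₀ : Irreducible ϖ₀) {m : ℕ}
    (hp : (𝔓.p : ↥(tbFix 𝔓 H)) = (ϖ₀ : ↥(tbFix 𝔓 H)) ^ m) :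
    ∃ η : ↥(tbFixO 𝔓 H), IsUnit η ∧
      (𝔓.p : ↥(tbFix 𝔓 H)) = (η : ↥(tbFix 𝔓 H)) * (d.ϖ : ↥(tbFix 𝔓 H)) ^ m := by
  obtain ⟨u, hu⟩ := IsDiscreteValuationRing.associated_of_irreducible _ d.hϖ hϖ₀
  refine ⟨((u ^ m : (↥(tbFixO 𝔓 H))ˣ) : ↥(tbFixO 𝔓 H)), Units.isUnit _, ?_⟩
  rw [hp, ← hu]
  push_cast
  ring

/-- the thickness at a level with `ϖ₀ ^ m = p` -/
theorem mltj9_w_eq (d : MltJ6NodeAt 𝔓 K hK h49 H P) {ϖ₀ : ↥(tbFixO 𝔓 H)}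
    (hϖ₀ : Irreducible ϖ₀) {m : ℕ}
    (hp : (𝔓.p : ↥(tbFix 𝔓 H)) = (ϖ₀ : ↥(tbFix 𝔓 H)) ^ m) : d.𝒩.w = m := by
  obtain ⟨η, hη, hpe⟩ := mltj9_exists_unit d hϖ₀ hp
  exact mltj6_thick d hη hpe

/-- **`slope(D_H) = 12`** -/
theorem mltj9_slope_vert (d : MltJ6NodeAt 𝔓 K hK h49 H P) {ϖ₀ : ↥(tbFixO 𝔓 H)}
    (hϖ₀ : Irreducible ϖ₀) {m : ℕ} (hm : m ≠ 0)
    (hp : (𝔓.p : ↥(tbFix 𝔓 H)) = (ϖ₀ : ↥(tbFix 𝔓 H)) ^ m) :
    d.𝒩.slope (dlxVertD 𝔓 H K) = 12 := by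
  obtain ⟨η, hη, hpe⟩ := mltj9_exists_unit d hϖ₀ hp
  have h1 := mltj6_vert_law 𝔓 H d.hϖ K hK h49 d.su d.hx d.hxb d.hs d.𝒩 d.h𝒩 hη hpe
  rw [mltj6_thick d hη hpe] at h1
  have hm' : (m : ℤ) ≠ 0 := by exact_mod_cast hm
  exact mul_right_cancel₀ hm' h1

/-- the orders of the vertical unit at the two components -/
theorem mltj9_vert_ord (d : MltJ6NodeAt 𝔓 K hK h49 H P) {ϖ₀ : ↥(tbFixO 𝔓 H)}
    (hϖ₀ : Irreducible ϖ₀) {m : ℕ}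
    (hp : (𝔓.p : ↥(tbFix 𝔓 H)) = (ϖ₀ : ↥(tbFix 𝔓 H)) ^ m) :
    d.𝒩.oW (dlxVertD 𝔓 H K) = 0 ∧ d.𝒩.oW' (dlxVertD 𝔓 H K) = 12 * (m : ℤ) := by
  have hD0 : dlxVertD 𝔓 H K ≠ 0 := dlxVertD_ne_zero 𝔓 H K
  constructor
  · have h3 : d.𝒩.W.valuation (dlxVertD 𝔓 H K) = 1 := by
      rw [mltj6_nodeAt_W]
      exact dlxVertD_val_inf 𝔓 H K
    exact (dl_valuation_eq_one_iff d.𝒩.W hD0).mp h3
  · haveI : IsDiscreteValuationRing ↥(dliO0 (tbFixO 𝔓 H) (tbFixRes 𝔓 H)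
        (tbFixRes_surjective 𝔓 H) (t2iALFix 𝔓 H K hK)) := d.C.P.dvr _ d.C.V₂_mem
    haveI : IsDiscreteValuationRing ↥d.C.V₂ := d.C.P.dvr _ d.C.V₂_mem
    have hone : (𝔓.p : ↥(tbFix 𝔓 H)) =
        ((1 : ↥(tbFixO 𝔓 H)) : ↥(tbFix 𝔓 H)) * (ϖ₀ : ↥(tbFix 𝔓 H)) ^ m := by
      rw [hp]
      simp
    have h4 := dlxVertD_ord_zero_of_unif 𝔓 H K hK hϖ₀ isUnit_one hone
    rw [← h4]
    exact mltj6_dlOrd_congr (mltj6_nodeAt_W' d) _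

/-- **the slope vector of `D − ϖ₀¹²`**: `sl · m = 12 m − 12` at every node datum -/
theorem mltj9_sl_vert (hLaw : MltJ6LawQ) (d : MltJ6NodeAt 𝔓 K hK h49 H P)
    {ϖ₀ : ↥(tbFixO 𝔓 H)} (hϖ₀ : Irreducible ϖ₀) {m : ℕ} (hm : 2 ≤ m)
    (hp : (𝔓.p : ↥(tbFix 𝔓 H)) = (ϖ₀ : ↥(tbFix 𝔓 H)) ^ m)
    (D' : Divisor Qb ↥(modularFunctionFieldBar (K * 𝔓.p)))
    (hD' : ∀ v : Place Qb ↥(modularFunctionFieldBar (K * 𝔓.p)),
      D' v = v.ord (tbPhiF 𝔓 (K * 𝔓.p) H (dlxVertD 𝔓 H K -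
        algebraMap ↥(tbFix 𝔓 H) ↥(tbLevF 𝔓 (K * 𝔓.p) H) ((ϖ₀ : ↥(tbFix 𝔓 H)) ^ 12)))) :
    mltj6Sl 𝔓 K hK h49 D' P * (m : ℚ) = 12 * (m : ℚ) - 12 := by
  have hm0 : m ≠ 0 := by omega
  obtain ⟨hoW, hoW'⟩ := mltj9_vert_ord d hϖ₀ hp
  have hD0 : dlxVertD 𝔓 H K ≠ 0 := dlxVertD_ne_zero 𝔓 H K
  have hϖ0 : (ϖ₀ : ↥(tbFix 𝔓 H)) ≠ 0 := by
    intro h0
    exact hϖ₀.ne_zero (Subtype.ext h0)
  have hθ0 : (ϖ₀ : ↥(tbFix 𝔓 H)) ^ 12 ≠ 0 := pow_ne_zero _ hϖ0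
  have hordθ : dlOrd d.𝒩.O ((ϖ₀ : ↥(tbFix 𝔓 H)) ^ 12) = 12 := by
    rw [mltj6_dlOrd_congr (mltj6_nodeAt_O d), dlOrd_pow, dlOrd_coe_irreducible (tbFixO 𝔓 H) hϖ₀]
    norm_num
  obtain ⟨hz0, hzW, hzW', hzs⟩ := mltj9_node_sub d.𝒩 hD0 hθ0 hoW (by rw [hordθ]; norm_num)
    (by
      rw [hordθ, hoW']
      have : (2 : ℤ) ≤ (m : ℤ) := by exact_mod_cast hm
      omega)
  have h1 := hLaw 𝔓 K hK h49 H P d _ hz0 D' hD'
  rw [hzW, hzW', hzs, mltj9_slope_vert d hϖ₀ hm0 hp, hordθ, mltj9_w_eq d hϖ₀ hp] at h1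
  rw [h1]
  push_cast
  ring

end Inst

end Fermat.Agent.MLT
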