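/-
MLT / [L2] / P9 (helper1), part 7: **the function `Δ(q)/Δ(q^p) − ϖ₀¹²` over `ℚ̄`, at the level `K₀ p`**.

* `mltj9F0 K₀ θ`      : the function `f₀ = Δ(q)/Δ(q^p) − θ` of `F_{K₀ p} ⊗ ℚ̄`;
* `mltj9_iota_f0`     : its image in `F_{K₀ e p} ⊗ ℚ̄` is `Φ_H (D − ϖ₀¹²)` for `θ = ϖ₀¹²`, `ϖ₀ ∈ L_H`;
* `mltj9_z_ne_zero`   : `D − ϖ₀¹² ≠ 0`;
* `mltj9_reg`         : `Φ_H (D − c)` is regular at the places through a node;
* `mltj9_j_reg`       : `j` is regular at the places through a node.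
-/
import Mathlib
import Fermat.Agent.Lib.MLT.L2.P9.Same
import Fermat.Agent.Lib.MLT.L2.P9.SlVal
import Fermat.Agent.Lib.Delta.End.VertHecke

set_option autoImplicit false
set_option linter.unusedSectionVars false
set_option linter.unusedVariables false
set_option linter.style.haveILetI false
set_option synthInstance.maxHeartbeats 400000
set_option maxHeartbeats 1000000

open HahnSeries ModularCurve Fermat.Agent.T1 Fermat.Agent.T2 Fermat.Agent.T4 Fermat.Agent.TW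
  Fermat.Agent.S05Lib Fermat.Agent.S24Lib IntermediateField AlgebraicCurve Fermat.Agent.Curve Module
  Fermat.Agent.S33 Fermat.Agent.S33Q Fermat.Agent.Delta Fermat.Agent.Curve.PlaceAux Fermat.Agent.T3
  Fermat.Agent.Mazur

noncomputable section

namespace Fermat.Agent.MLT

local notation "Qb" => AlgebraicClosure ℚ

attribute [local instance] t2i_dvr t2i_isAlgClosed t2i_charP t2i_fact
attribute [local instance 10000] dliAlgF dliAlgE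
attribute [local instance 5000] dlhAlgK
attribute [local instance] dle_neZero_p

section F0

variable (𝔓 : FFPlace) (K₀ e : ℕ) [NeZero K₀] [NeZero e]

/-- the function `Δ(q)/Δ(q^p) − θ` of the level `K₀ p` -/
def mltj9F0 (θ : Qb) : ↥(modularFunctionFieldBar (K₀ * 𝔓.p)) :=
  dleVertF (K₀ * 𝔓.p) 𝔓.p (dvd_mul_left 𝔓.p K₀) -
    algebraMap Qb ↥(modularFunctionFieldBar (K₀ * 𝔓.p)) θ

theorem coe_mltj9F0 (θ : Qb) :
    ((mltj9F0 𝔓 K₀ θ : ↥(modularFunctionFieldBar (K₀ * 𝔓.p))) : LaurentSeries Qb) =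
      Igusa.unitFinLS Qb 𝔓.p - HahnSeries.C θ := by
  rw [mltj9F0, AddSubgroupClass.coe_sub, coe_dleVertF, dle_coe_algebraMap]

variable {𝔓} in
/-- the image of `f₀` at the level `K₀ e p` comes from the level `H` -/
theorem mltj9_iota_f0 (H : Subgroup 𝔓.I) [H.FiniteIndex] (c : ↥(tbFix 𝔓 H)) :
    mltj9Iota 𝔓 K₀ e (mltj9F0 𝔓 K₀ (c : Qb)) =
      tbPhiF 𝔓 (K₀ * e * 𝔓.p) H (dlxVertD 𝔓 H (K₀ * e) -
        algebraMap ↥(tbFix 𝔓 H) ↥(tbLevF 𝔓 (K₀ * e * 𝔓.p) H) c) := by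
  apply Subtype.ext
  rw [coe_dlwIncl, coe_mltj9F0, map_sub, AddSubgroupClass.coe_sub, dlxVertD_phi, tbPhiF_algebraMap,
    dle_coe_algebraMap]

end F0

section Reg

variable {𝔓 : FFPlace} {K : ℕ} [NeZero K] {hK : ¬ 𝔓.p ∣ K} {h49 : 4 ∣ K ∨ 9 ∣ K}
  {P : Place (IsLocalRing.ResidueField ↥𝔓.P) ↥(tbBarF 𝔓 K)}

/-- `D − ϖ₀¹² ≠ 0` -/
theorem mltj9_z_ne_zero (hK' : ¬ 𝔓.p ∣ K) (H : Subgroup 𝔓.I) [H.FiniteIndex] {ϖ₀ : ↥(tbFixO 𝔓 H)}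
    (hϖ₀ : Irreducible ϖ₀) :
    dlxVertD 𝔓 H K - algebraMap ↥(tbFix 𝔓 H) ↥(tbLevF 𝔓 (K * 𝔓.p) H)
      ((ϖ₀ : ↥(tbFix 𝔓 H)) ^ 12) ≠ 0 := by
  intro h0
  rw [sub_eq_zero] at h0
  have h1 := dlxVertD_val_inf 𝔓 H K
  have h2 := (dliH_unif_inf 𝔓 H hϖ₀ K hK').1
  rw [h0, map_pow, map_pow] at h1
  have h3 : ((taOv (tbFixO 𝔓 H) (tbFixRes 𝔓 H) (tbFixRes_surjective 𝔓 H) (K * 𝔓.p)).valuation
      (algebraMap ↥(tbFix 𝔓 H) ↥(tbLevF 𝔓 (K * 𝔓.p) H) ((ϖ₀ : ↥(tbFixO 𝔓 H)) : ↥(tbFix 𝔓 H)))) ^ 12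
      < 1 := pow_lt_one' h2 (by norm_num)
  rw [h1] at h3
  exact lt_irrefl _ h3

/-- `Φ_H (D − c)` is regular at every place through a node -/
theorem mltj9_reg {H : Subgroup 𝔓.I} [H.FiniteIndex] (d : MltJ6NodeAt 𝔓 K hK h49 H P)
    (Y : Place Qb ↥(modularFunctionFieldBar (K * 𝔓.p))) (hthr : mltj6Through d Y)
    (c : ↥(tbFix 𝔓 H)) :
    0 ≤ Y.ord (tbPhiF 𝔓 (K * 𝔓.p) H (dlxVertD 𝔓 H K -
      algebraMap ↥(tbFix 𝔓 H) ↥(tbLevF 𝔓 (K * 𝔓.p) H) c)) := by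
  have hhor := mltj6_through_hor d Y hthr
  have hx : d.C.x = t2gaX 𝔓 H K hK (𝔓.p ^ 2) := d.hx
  rw [hx] at hhor
  have hQ : 2 ≤ 𝔓.p ^ 2 := by
    have := 𝔓.hp.two_le
    nlinarith
  have h1 := dlxVertD_hor 𝔓 H K hK hQ _ hhor
  have h2 : dlxVertD 𝔓 H K ∈ mltj6Res H (K * 𝔓.p) Y := by
    rw [← ValuationSubring.valuation_le_one_iff, h1]
  have h3 : algebraMap ↥(tbFix 𝔓 H) ↥(tbLevF 𝔓 (K * 𝔓.p) H) c ∈ mltj6Res H (K * 𝔓.p) Y :=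
    t4vp_algebraMap_mem_hor hhor c
  have h4 := sub_mem h2 h3
  rw [mem_mltj6Res] at h4
  exact ord_nonneg_of_mem Y h4

/-- `j` is regular at every place through a node -/
theorem mltj9_j_reg {Y : Place Qb ↥(modularFunctionFieldBar (K * 𝔓.p))}
    (hthr : mltj9Thr 𝔓 K hK h49 P Y) : 0 ≤ Y.ord (tbJ (K * 𝔓.p)) := by
  obtain ⟨d, hd⟩ := hthr
  have h0 := (mltj6_through_iff d Y).mp hd
  have hxQ : tbPhiF 𝔓 (K * 𝔓.p) ⊤ d.C.x ∈ Y.toValuationSubring := d.C.P.B_le h0.1 d.C.x_mem_B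
  have hx : d.C.x = t2gaX 𝔓 ⊤ K hK (𝔓.p ^ 2) := d.hx
  rw [hx, s33q_phi_X] at hxQ
  have h1 : IsIntegral ↥(Algebra.adjoin Qb {s33qX 𝔓 K hK}) (tbJ (K * 𝔓.p)) :=
    t2ca_bar_ca1 K 𝔓.p hK
  exact ta_ord_nonneg_of_isIntegral h1 Y (ord_nonneg_of_mem Y hxQ)

end Reg

end Fermat.Agent.MLT
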