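/-
MLT / [L2] / P9 (helper1), part 8: **the two-level slope structure** (`MltjSlopeTwo`, helper9's contract (γ-S)).

`K₀` arbitrary (prime to `p = 𝔓.p`), `K = K₀ e` rigid.  For a prime `m ≥ 5`, `m > N`, let `H` be the level with
`ϖ₀^m = p`, `f₀ = Δ(q)/Δ(q^p) − ϖ₀¹²` (a function of the level `K₀ p`).  The slope vector of `div (f₀)` pulled back to
the level `K p` is `12 (m − 1)/m` at every supersingular place (`mltj9_sl_vert`).  The partition `c` of `Σ_K` is the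
one generated by "joined by a point of the level `K₀ p`" (`mltj9Rel`); it is finer than `mltjSame` (`mltj9_restrict_eq`)
and every class carries a divisor of the level `K₀ p` (`mltj9_exists_div`).
-/
import Mathlib
import Fermat.Agent.Lib.MLT.L2.P9.VertQ
import Fermat.Agent.Lib.MLT.L2.P8.Slope

set_option autoImplicit false
set_option linter.unusedSectionVars false
set_option linter.unusedVariables false
set_option linter.style.haveILetI false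
set_option synthInstance.maxHeartbeats 400000
set_option maxHeartbeats 1000000

open HahnSeries ModularCurve Fermat.Agent.T1 Fermat.Agent.T2 Fermat.Agent.T4 Fermat.Agent.TW
  Fermat.Agent.S05Lib Fermat.Agent.S24Lib IntermediateField AlgebraicCurve Fermat.Agent.Curve Module
  Fermat.Agent.S33 Fermat.Agent.S33Q Fermat.Agent.Delta Fermat.Agent.Curve.PlaceAux Fermat.Agent.T3
  Fermat.Agent.Mazur

noncomputable section

namespace Fermat.Agent.MLT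

local notation "Qb" => AlgebraicClosure ℚ

attribute [local instance] t2i_dvr t2i_isAlgClosed t2i_charP t2i_fact
attribute [local instance 10000] dliAlgF dliAlgE
attribute [local instance 5000] dlhAlgK
attribute [local instance] dle_neZero_p

variable (𝔓 : FFPlace) (K₀ e : ℕ) [NeZero K₀] [NeZero e] (hK₀ : ¬ 𝔓.p ∣ K₀)
  (hK : ¬ 𝔓.p ∣ K₀ * e) (h49 : 4 ∣ K₀ * e ∨ 9 ∣ K₀ * e)

/-- two supersingular places of the level `K₀ e` are **joined by a point of the level `K₀ p`** -/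
def mltj9Rel (P P' : Place (IsLocalRing.ResidueField ↥𝔓.P) ↥(tbBarF 𝔓 (K₀ * e))) : Prop :=
  ∃ Y Y' : Place Qb ↥(modularFunctionFieldBar (K₀ * e * 𝔓.p)),
    mltj9Thr 𝔓 (K₀ * e) hK h49 P Y ∧ mltj9Thr 𝔓 (K₀ * e) hK h49 P' Y' ∧
    Y.restrictAlong (mltj9Iota 𝔓 K₀ e) (mltj9Iota_integral 𝔓 K₀ e) =
      Y'.restrictAlong (mltj9Iota 𝔓 K₀ e) (mltj9Iota_integral 𝔓 K₀ e)

/-- **the partition**: a representative of the class of `P` for the equivalence relation generated by `mltj9Rel` -/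
def mltj9Cls (P : Place (IsLocalRing.ResidueField ↥𝔓.P) ↥(tbBarF 𝔓 (K₀ * e))) :
    Place (IsLocalRing.ResidueField ↥𝔓.P) ↥(tbBarF 𝔓 (K₀ * e)) :=
  (Quotient.mk (Relation.EqvGen.setoid (mltj9Rel 𝔓 K₀ e hK h49)) P).out

variable {𝔓 K₀ e hK₀ hK h49}

theorem mltj9Cls_eq_of_rel {P P' : Place (IsLocalRing.ResidueField ↥𝔓.P) ↥(tbBarF 𝔓 (K₀ * e))}
    (h : mltj9Rel 𝔓 K₀ e hK h49 P P') : mltj9Cls 𝔓 K₀ e hK h49 P = mltj9Cls 𝔓 K₀ e hK h49 P' := by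
  unfold mltj9Cls
  rw [Quotient.out_inj]
  exact Quotient.sound (Relation.EqvGen.rel _ _ h)

/-- the places of a class have the same restriction to `F̄_{K₀}` -/
theorem mltj9Cls_restrict (hN : Mltj9NormLift 𝔓 K₀ hK₀)
    {P P' : Place (IsLocalRing.ResidueField ↥𝔓.P) ↥(tbBarF 𝔓 (K₀ * e))}
    (h : mltj9Cls 𝔓 K₀ e hK h49 P = mltj9Cls 𝔓 K₀ e hK h49 P') :
    P.restrictAlong (dlhAlphaC (IsLocalRing.ResidueField ↥𝔓.P) K₀ e)
        (mzr5i_alphaC_integral 𝔓 K₀ e) =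
      P'.restrictAlong (dlhAlphaC (IsLocalRing.ResidueField ↥𝔓.P) K₀ e)
        (mzr5i_alphaC_integral 𝔓 K₀ e) := by
  unfold mltj9Cls at h
  rw [Quotient.out_inj] at h
  have h1 := Quotient.exact h
  have h2 : Relation.EqvGen.setoid (mltj9Rel 𝔓 K₀ e hK h49) ≤
      Setoid.ker (fun P : Place (IsLocalRing.ResidueField ↥𝔓.P) ↥(tbBarF 𝔓 (K₀ * e)) =>
        P.restrictAlong (dlhAlphaC (IsLocalRing.ResidueField ↥𝔓.P) K₀ e)
          (mzr5i_alphaC_integral 𝔓 K₀ e)) := by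
    apply Setoid.eqvGen_le
    rintro x y ⟨Y, Y', hY, hY', hres⟩
    exact mltj9_restrict_eq hN hY hY' hres
  exact h2 h1

/-- equal restrictions to `F̄_{K₀}` give `mltjSame` -/
theorem mltj9_same_of_restrict_eq
    {P P' : Place (IsLocalRing.ResidueField ↥𝔓.P) ↥(tbBarF 𝔓 (K₀ * e))}
    (h0 : P.restrictAlong (dlhAlphaC (IsLocalRing.ResidueField ↥𝔓.P) K₀ e)
        (mzr5i_alphaC_integral 𝔓 K₀ e) =
      P'.restrictAlong (dlhAlphaC (IsLocalRing.ResidueField ↥𝔓.P) K₀ e)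
        (mzr5i_alphaC_integral 𝔓 K₀ e)) :
    mltjSame 𝔓 K₀ e hK h49 P P' := by
  intro f _ a b ha hb
  have ha₀ := mzr5_value_of_map (dlhAlphaC (IsLocalRing.ResidueField ↥𝔓.P) K₀ e)
    (mzr5i_alphaC_integral 𝔓 K₀ e) P ha
  have hb₀ := mzr5_value_of_map (dlhAlphaC (IsLocalRing.ResidueField ↥𝔓.P) K₀ e)
    (mzr5i_alphaC_integral 𝔓 K₀ e) P' hb
  rw [← h0] at hb₀
  exact DlgVal.unique ha₀ hb₀

/-- `12 m − 12` is prime to a prime `m ≥ 5` -/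
theorem mltj9_coprime {m : ℕ} (hm : m.Prime) (hm5 : 5 ≤ m) :
    IsCoprime (12 * (m : ℤ) - 12) (m : ℤ) := by
  have h2 : Nat.Coprime 2 m := (Nat.coprime_primes Nat.prime_two hm).mpr (by omega)
  have h3 : Nat.Coprime 3 m := (Nat.coprime_primes Nat.prime_three hm).mpr (by omega)
  have h12 : Nat.Coprime 12 m := by
    have := Nat.Coprime.mul_left (Nat.Coprime.pow_left 2 h2) h3
    norm_num at this
    exact this
  have h12' : IsCoprime ((12 : ℕ) : ℤ) (m : ℤ) := Nat.isCoprime_iff_coprime.mpr h12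
  have h := (h12'.neg_left).add_mul_left_left 12
  have e : 12 * (m : ℤ) - 12 = -((12 : ℕ) : ℤ) + (m : ℤ) * 12 := by
    push_cast
    ring
  rw [e]
  exact h

/-- **the two-level surjectivity** -/
theorem mltj9_surjTwo (hII : MltJ6CharII) (hLaw : MltJ6LawQ) (hN : Mltj9NormLift 𝔓 K₀ hK₀) (N : ℕ) :
    ∃ (m : ℕ) (a : ℤ), N < m ∧ IsCoprime a (m : ℤ) ∧
      ∃ c : Place (IsLocalRing.ResidueField ↥𝔓.P) ↥(tbBarF 𝔓 (K₀ * e)) →
          Place (IsLocalRing.ResidueField ↥𝔓.P) ↥(tbBarF 𝔓 (K₀ * e)),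
        (∀ P ∈ mltjSS 𝔓 (K₀ * e) hK h49, ∀ P' ∈ mltjSS 𝔓 (K₀ * e) hK h49,
          c P = c P' → mltjSame 𝔓 K₀ e hK h49 P P') ∧
        ∀ Q ∈ mltjSS 𝔓 (K₀ * e) hK h49,
          ∃ D : Divisor.degZero (K := Qb) (F := ↥(modularFunctionFieldBar (K₀ * 𝔓.p))),
            ∀ P ∈ mltjSS 𝔓 (K₀ * e) hK h49,
              (c P = c Q → mltj6Sl 𝔓 (K₀ * e) hK h49 (Divisor.pullbackAlong
                  (dlwIncl (N := K₀ * 𝔓.p) (K := K₀ * e * 𝔓.p) ⟨e, by ring⟩)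
                  (dlwIncl_integral (N := K₀ * 𝔓.p) (K := K₀ * e * 𝔓.p) ⟨e, by ring⟩)
                  (D : Divisor Qb _)) P = (a : ℚ) / m) ∧
              (c P ≠ c Q → mltj6Sl 𝔓 (K₀ * e) hK h49 (Divisor.pullbackAlong
                  (dlwIncl (N := K₀ * 𝔓.p) (K := K₀ * e * 𝔓.p) ⟨e, by ring⟩)
                  (dlwIncl_integral (N := K₀ * 𝔓.p) (K := K₀ * e * 𝔓.p) ⟨e, by ring⟩)
                  (D : Divisor Qb _)) P = 0) := by
  obtain ⟨m, hmge, hmp⟩ := Nat.exists_infinite_primes (max N 4 + 1)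
  have hm5 : 5 ≤ m := by
    have := le_max_right N 4
    omega
  have hNm : N < m := by
    have := le_max_left N 4
    omega
  obtain ⟨H, hH, ϖ₀, -, hϖ₀, hp, -⟩ := mltj8_exists_level (𝔓 := 𝔓) m (by omega)
  haveI := hH
  set θ : ↥(tbFix 𝔓 H) := (ϖ₀ : ↥(tbFix 𝔓 H)) ^ 12 with hθ
  set f₀ : ↥(modularFunctionFieldBar (K₀ * 𝔓.p)) := mltj9F0 𝔓 K₀ ((θ : ↥(tbFix 𝔓 H)) : Qb) with hf₀def
  have hιf₀ : mltj9Iota 𝔓 K₀ e f₀ =
      tbPhiF 𝔓 (K₀ * e * 𝔓.p) H (dlxVertD 𝔓 H (K₀ * e) -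
        algebraMap ↥(tbFix 𝔓 H) ↥(tbLevF 𝔓 (K₀ * e * 𝔓.p) H) θ) := mltj9_iota_f0 K₀ e H θ
  refine ⟨m, 12 * (m : ℤ) - 12, hNm, mltj9_coprime hmp hm5, mltj9Cls 𝔓 K₀ e hK h49,
    fun P _ P' _ hc => mltj9_same_of_restrict_eq (mltj9Cls_restrict hN hc), fun Q hQ => ?_⟩
  -- a pole of `j`
  haveI : Algebra.IsSeparable ↥Qb⟮jBar (K₀ * 𝔓.p)⟯ ↥(modularFunctionFieldBar (K₀ * 𝔓.p)) :=
    t2ca_isSeparable K₀ 𝔓.p (isFunctionFieldGen_jBar (K₀ * 𝔓.p))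
  have hJ : tbJ (K₀ * 𝔓.p) = jBar (K₀ * 𝔓.p) := Subtype.ext rfl
  obtain ⟨yinf, hyinf⟩ := ta_exists_pole (K := Qb) (isFunctionFieldGen_jBar (K₀ * 𝔓.p))
  have hm0 : (0 : ℚ) < (m : ℚ) := by
    have : 0 < m := by omega
    exact_mod_cast this
  obtain ⟨D, hD⟩ := mltj9_exists_div (K := K₀ * e) (hK := hK) (h49 := h49) (M := K₀ * 𝔓.p) hII
    (mltj9Iota 𝔓 K₀ e) (mltj9Iota_integral 𝔓 K₀ e) f₀ yinf
    {P | mltj9Cls 𝔓 K₀ e hK h49 P = mltj9Cls 𝔓 K₀ e hK h49 Q}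
    (((12 * (m : ℤ) - 12 : ℤ) : ℚ) / (m : ℚ))
    (by
      intro P hP Y hthr
      rw [hιf₀]
      obtain ⟨d₀, h₀⟩ := hthr
      obtain ⟨d⟩ := mltj6_exists_nodeAt_of_node 𝔓 (K₀ * e) hK h49 d₀.su d₀.hx d₀.hxb d₀.hs H
      exact mltj9_reg d Y (mltj6_through_up le_top d₀ d Y h₀) θ)
    (by
      intro P hP Y hthr heq
      have h1 := mltj9_j_reg hthr
      have h2 : mltj9Iota 𝔓 K₀ e (tbJ (K₀ * 𝔓.p)) = tbJ (K₀ * e * 𝔓.p) := Subtype.ext rfl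
      rw [← h2] at h1
      have h3 := mzr5_ord_nonneg_of_map (mltj9Iota 𝔓 K₀ e) (mltj9Iota_integral 𝔓 K₀ e) Y h1
      rw [heq, hJ] at h3
      omega)
    (by
      intro D' hD' P hP
      obtain ⟨d⟩ := mltj9_exists_nodeAt hP H
      have h1 := mltj9_sl_vert hLaw d hϖ₀ (by omega : 2 ≤ m) hp D' (by
        intro v
        rw [hD' v, hιf₀])
      rw [eq_div_iff (ne_of_gt hm0), h1]
      push_cast
      ring)
    (by
      intro h0
      have h1 := congrArg (mltj9Iota 𝔓 K₀ e) h0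
      rw [hιf₀, map_zero, map_eq_zero] at h1
      exact mltj9_z_ne_zero hK H hϖ₀ h1)
    (by
      intro P hP hPC P' hP' Y Y' hY hY' hres
      have h1 : mltj9Cls 𝔓 K₀ e hK h49 P = mltj9Cls 𝔓 K₀ e hK h49 P' :=
        mltj9Cls_eq_of_rel ⟨Y, Y', hY, hY', hres⟩
      show mltj9Cls 𝔓 K₀ e hK h49 P' = mltj9Cls 𝔓 K₀ e hK h49 Q
      rw [← h1]
      exact hPC)
  exact ⟨D, fun P hP => ⟨fun h => (hD P hP).1 h, fun h => (hD P hP).2 h⟩⟩

/-- **(γ-S), at-form**: the two-level slope structure -/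
theorem mltj9_slopeTwoAt (hI : MltJ6CharI) (hII : MltJ6CharII) (hLaw : MltJ6LawQ)
    (hprinc : Mltj8PrincAt 𝔓 (K₀ * e) hK h49) (hhecke : Mltj8HeckeAt 𝔓 (K₀ * e) hK h49)
    (hN : Mltj9NormLift 𝔓 K₀ hK₀) : Nonempty (MltjSlopeTwo 𝔓 K₀ e hK h49) :=
  ⟨{ s := mltj8Slope 𝔓 (K₀ * e) hK h49 hI hII hprinc hhecke
     surjTwo := fun N => mltj9_surjTwo hII hLaw hN N }⟩

end Fermat.Agent.MLT
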