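/-
MLT / [L2] / P9 (helper1), part 9: **(γ-S) CLOSED modulo the Hecke compatibility of the slope map**.

* `mltj9_normLift`          : helper8's norm lift (`P9/Norm.lean`) in the form `Mltj9NormLift`;
* `mltj9_slopeTwo_of_hecke` : `Mltj8HeckeAt 𝔓 (K₀ e) → Nonempty (MltjSlopeTwo 𝔓 K₀ e hK h49)` (any `e`, `K₀ e` rigid);
* `mltj9_slopeTwoEx`        : `(∀ 𝔓 K …, Mltj8HeckeAt 𝔓 K hK h49) → MltjSlopeTwoEx` (helper9's contract, `e = 9`).
Inputs: helper8's `mltj6_charI`, `mltj6_charII`, `mltj6_lawQ_main`, `mltj6_princAt`, `mltj9_norm_lift`.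
-/
import Mathlib
import Fermat.Agent.Lib.MLT.L2.P9.SlopeTwo
import Fermat.Agent.Lib.MLT.L2.P9.Norm
import Fermat.Agent.Lib.MLT.L2.P6.Main

set_option autoImplicit false
set_option linter.unusedSectionVars false
set_option linter.unusedVariables false
set_option linter.style.haveILetI false
set_option synthInstance.maxHeartbeats 400000
set_option maxHeartbeats 1000000

open Fermat.Agent.TW

noncomputable section

namespace Fermat.Agent.MLT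

/-- the norm lift, in the form used by `P9/Same.lean` -/
theorem mltj9_normLift (𝔓 : FFPlace) (K₀ e : ℕ) [NeZero K₀] [NeZero e] (hK₀ : ¬ 𝔓.p ∣ K₀)
    (hK : ¬ 𝔓.p ∣ K₀ * e) (h49 : 4 ∣ K₀ * e ∨ 9 ∣ K₀ * e) : Mltj9NormLift 𝔓 K₀ hK₀ :=
  fun t ht => mltj9_norm_lift 𝔓 K₀ e hK₀ hK h49 t ht

/-- **(γ-S), at-form**: the two-level slope structure exists as soon as the slope map of the rigid level `K₀ e`
commutes with the Hecke correspondences -/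
theorem mltj9_slopeTwo_of_hecke (𝔓 : FFPlace) (K₀ e : ℕ) [NeZero K₀] [NeZero e]
    (hK : ¬ 𝔓.p ∣ K₀ * e) (h49 : 4 ∣ K₀ * e ∨ 9 ∣ K₀ * e)
    (hhecke : Mltj8HeckeAt 𝔓 (K₀ * e) hK h49) : Nonempty (MltjSlopeTwo 𝔓 K₀ e hK h49) :=
  have hK₀ : ¬ 𝔓.p ∣ K₀ := fun h => hK (Dvd.dvd.mul_right h e)
  mltj9_slopeTwoAt (hK₀ := hK₀) mltj6_charI mltj6_charII mltj6_lawQ_main
    (mltj6_princAt 𝔓 (K₀ * e) hK h49) hhecke (mltj9_normLift 𝔓 K₀ e hK₀ hK h49)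

/-- **(γ-S)**: helper9's contract `MltjSlopeTwoEx` from the Hecke compatibility of the slope map -/
theorem mltj9_slopeTwoEx
    (hhecke : ∀ (𝔓 : FFPlace) (K : ℕ) [NeZero K] (hK : ¬ 𝔓.p ∣ K) (h49 : 4 ∣ K ∨ 9 ∣ K),
      Mltj8HeckeAt 𝔓 K hK h49) : MltjSlopeTwoEx :=
  fun 𝔓 K₀ _ _ hK h49 => mltj9_slopeTwo_of_hecke 𝔓 K₀ 9 hK h49 (hhecke 𝔓 (K₀ * 9) hK h49)

end Fermat.Agent.MLT
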